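/-
LSb / Val / WqMer  (helper9)

The Atkin–Lehner matrix `W = [[q x, y], [M q, q]]` (`q x - M y = 1`) acting on the field `Mer` of
meromorphic functions on the upper half-plane, and its effect on the functions `j(d·)`:

  `j(d · Wz) = j(d q · z)`,   `j(d q · Wz) = j(d · z)`     (`d ∣ M`).
-/
import Mathlib
import Fermat.Agent.ProgramR.BarField.Model

set_option autoImplicit false
set_option linter.unusedSectionVars false

noncomputable section

namespace Fermat.Agent.LSb.Val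

open UpperHalfPlane CongruenceSubgroup
open Fermat.Agent.ProgramR Fermat.Agent.ProgramR.BarField Fermat.Agent.ProgramR.LevelOne
open scoped MatrixGroups

/-- composition with a Möbius transformation on `Mer = Frac Hol` -/
def merComp (g : GL (Fin 2) ℝ) (hg : 0 < g.det.val) : Mer →+* Mer :=
  IsFractionRing.lift (K := Mer) (g := (algebraMap Hol Mer).comp (Hol.comp g hg))
    ((IsFractionRing.injective Hol Mer).comp (Hol.comp_injective g hg))

theorem merComp_algebraMap (g : GL (Fin 2) ℝ) (hg : 0 < g.det.val) (f : Hol) :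
    merComp g hg (algebraMap Hol Mer f) = algebraMap Hol Mer (Hol.comp g hg f) :=
  IsFractionRing.lift_algebraMap _ f

/-- the Atkin–Lehner matrix `[[q x, y], [M q, q]]` -/
def alW (M q : ℕ) [NeZero q] (x y : ℤ) (h : (q : ℤ) * x - (M : ℤ) * y = 1) : GL (Fin 2) ℝ :=
  Matrix.GeneralLinearGroup.mkOfDetNeZero
    !![((q : ℤ) * x : ℤ), (y : ℝ); ((M * q : ℕ) : ℝ), (q : ℝ)]
    (by
      have hq : (q : ℝ) ≠ 0 := Nat.cast_ne_zero.mpr (NeZero.ne q)
      have h' : (q : ℝ) * x - (M : ℝ) * y = 1 := by exact_mod_cast h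
      rw [Matrix.det_fin_two_of]
      push_cast
      have : (q : ℝ) * x * q - y * (M * q) = q * ((q : ℝ) * x - M * y) := by ring
      rw [this, h', mul_one]
      exact hq)

theorem alW_det (M q : ℕ) [NeZero q] (x y : ℤ) (h : (q : ℤ) * x - (M : ℤ) * y = 1) :
    (alW M q x y h).det.val = (q : ℝ) := by
  have h' : (q : ℝ) * x - (M : ℝ) * y = 1 := by exact_mod_cast h
  have h1 : (alW M q x y h).det.val =
      (!![(((q : ℤ) * x : ℤ) : ℝ), (y : ℝ); ((M * q : ℕ) : ℝ), (q : ℝ)]).det := by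
    simp [alW, Matrix.GeneralLinearGroup.mkOfDetNeZero]
  rw [h1, Matrix.det_fin_two_of]
  push_cast
  have : (q : ℝ) * x * q - y * (M * q) = q * ((q : ℝ) * x - M * y) := by ring
  rw [this, h', mul_one]

theorem alW_det_pos (M q : ℕ) [NeZero q] (x y : ℤ) (h : (q : ℤ) * x - (M : ℤ) * y = 1) :
    0 < (alW M q x y h).det.val := by
  rw [alW_det]
  exact_mod_cast Nat.pos_of_ne_zero (NeZero.ne q)

theorem coe_alW_smul (M q : ℕ) [NeZero q] (x y : ℤ) (h : (q : ℤ) * x - (M : ℤ) * y = 1) (z : ℍ) :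
    ((alW M q x y h • z : ℍ) : ℂ) =
      ((q : ℂ) * x * z + y) / ((M : ℂ) * q * z + q) := by
  rw [coe_smul_of_det_pos (alW_det_pos M q x y h)]
  simp [alW, num, denom, Matrix.GeneralLinearGroup.mkOfDetNeZero]

/-- the denominator of the Atkin–Lehner transformation does not vanish -/
theorem alW_denom_ne_zero (M q : ℕ) [NeZero q] (z : ℍ) : (M : ℂ) * q * z + q ≠ 0 := by
  have hq : (q : ℂ) ≠ 0 := Nat.cast_ne_zero.mpr (NeZero.ne q)
  intro h0
  have h1 : (q : ℂ) * ((M : ℂ) * z + 1) = 0 := by rw [← h0]; ring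
  have h2 : (M : ℂ) * z + 1 = 0 := (mul_eq_zero.mp h1).resolve_left hq
  by_cases hM : M = 0
  · subst hM
    simp at h2
  · have h3 := congrArg Complex.im h2
    simp only [Complex.add_im, Complex.mul_im, Complex.natCast_re, Complex.natCast_im, zero_mul,
      add_zero, Complex.one_im, Complex.zero_im, coe_im] at h3
    have hMpos : (0 : ℝ) < M := by exact_mod_cast Nat.pos_of_ne_zero hM
    have := mul_pos hMpos z.im_pos
    linarith

/-- the `SL(2, ℤ)` matrix `[[x, d y], [e, q]]`, `M = d e` -/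
def alGamma1 (M q : ℕ) (x y : ℤ) (h : (q : ℤ) * x - (M : ℤ) * y = 1) (d e : ℕ) (hM : M = d * e) :
    SL(2, ℤ) :=
  ⟨!![x, (d : ℤ) * y; (e : ℤ), (q : ℤ)], by
    rw [Matrix.det_fin_two_of]
    subst hM
    push_cast at h
    linear_combination h⟩

/-- the `SL(2, ℤ)` matrix `[[q x, d y], [e, 1]]`, `M = d e` -/
def alGamma2 (M q : ℕ) (x y : ℤ) (h : (q : ℤ) * x - (M : ℤ) * y = 1) (d e : ℕ) (hM : M = d * e) :
    SL(2, ℤ) :=
  ⟨!![(q : ℤ) * x, (d : ℤ) * y; (e : ℤ), 1], by
    rw [Matrix.det_fin_two_of]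
    subst hM
    push_cast at h
    linear_combination h⟩

theorem scaleH_alW_smul (M q : ℕ) [NeZero q] (x y : ℤ) (h : (q : ℤ) * x - (M : ℤ) * y = 1)
    (d e : ℕ) [NeZero d] (hM : M = d * e) (z : ℍ) :
    scaleH d (alW M q x y h • z) = alGamma1 M q x y h d e hM • scaleH (d * q) z := by
  apply UpperHalfPlane.ext
  rw [coe_scaleH, coe_alW_smul, coe_specialLinearGroup_apply, coe_scaleH]
  have h1 := alW_denom_ne_zero M q z
  have h2 : ((alGamma1 M q x y h d e hM 1 0 : ℤ) : ℂ) * ((d * q : ℕ) : ℂ) * z +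
      ((alGamma1 M q x y h d e hM 1 1 : ℤ) : ℂ) = (M : ℂ) * q * z + q := by
    simp only [alGamma1, Matrix.of_apply, Matrix.cons_val', Matrix.cons_val_zero,
      Matrix.cons_val_one, Matrix.cons_val_fin_one]
    subst hM
    push_cast
    ring
  simp only [alGamma1, Matrix.of_apply, Matrix.cons_val', Matrix.cons_val_zero,
      Matrix.cons_val_one, Matrix.cons_val_fin_one, algebraMap_int_eq, eq_intCast,
      Complex.ofReal_intCast] at h2 ⊢
  push_cast at h2 ⊢
  rw [show ((e : ℂ) * ((d : ℂ) * (q : ℂ) * (z : ℂ)) + (q : ℂ)) = (M : ℂ) * q * z + q by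
    rw [← h2]; ring]
  field_simp

theorem scaleH_mul_alW_smul (M q : ℕ) [NeZero q] (x y : ℤ) (h : (q : ℤ) * x - (M : ℤ) * y = 1)
    (d e : ℕ) [NeZero d] (hM : M = d * e) (z : ℍ) :
    scaleH (d * q) (alW M q x y h • z) = alGamma2 M q x y h d e hM • scaleH d z := by
  apply UpperHalfPlane.ext
  rw [coe_scaleH, coe_alW_smul, coe_specialLinearGroup_apply, coe_scaleH]
  have hq : (q : ℂ) ≠ 0 := Nat.cast_ne_zero.mpr (NeZero.ne q)
  have h1 := alW_denom_ne_zero M q z
  have h3 : (M : ℂ) * z + 1 ≠ 0 := by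
    intro h0
    apply h1
    have : (M : ℂ) * q * z + q = q * ((M : ℂ) * z + 1) := by ring
    rw [this, h0, mul_zero]
  simp only [alGamma2, Matrix.of_apply, Matrix.cons_val', Matrix.cons_val_zero,
      Matrix.cons_val_one, Matrix.cons_val_fin_one, algebraMap_int_eq, eq_intCast,
      Complex.ofReal_intCast]
  push_cast
  rw [show ((e : ℂ) * ((d : ℂ) * (z : ℂ)) + 1) = (M : ℂ) * z + 1 by
    subst hM; push_cast; ring]
  rw [show (M : ℂ) * q * z + q = q * ((M : ℂ) * z + 1) by ring]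
  field_simp

/-- `j(d · Wz) = j(d q · z)` -/
theorem jScaledFun_alW (M q : ℕ) [NeZero q] (x y : ℤ) (h : (q : ℤ) * x - (M : ℤ) * y = 1)
    (d : ℕ) [NeZero d] (hd : d ∣ M) (z : ℍ) :
    jScaledFun d (alW M q x y h • z) = jScaledFun (d * q) z := by
  obtain ⟨e, hM⟩ := hd
  rw [jScaledFun, jScaledFun, Function.comp_apply, Function.comp_apply,
    scaleH_alW_smul M q x y h d e hM, jInv_smul]

/-- `j(d q · Wz) = j(d · z)` -/
theorem jScaledFun_mul_alW (M q : ℕ) [NeZero q] (x y : ℤ) (h : (q : ℤ) * x - (M : ℤ) * y = 1)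
    (d : ℕ) [NeZero d] (hd : d ∣ M) (z : ℍ) :
    jScaledFun (d * q) (alW M q x y h • z) = jScaledFun d z := by
  obtain ⟨e, hM⟩ := hd
  rw [jScaledFun, jScaledFun, Function.comp_apply, Function.comp_apply,
    scaleH_mul_alW_smul M q x y h d e hM, jInv_smul]

end Fermat.Agent.LSb.Val
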