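/-
LSb / Val / WqBar  (helper9)

The Atkin–Lehner involution `w_q` on the formal function field `FBar L (M q)` (`q` prime, `q ∤ M`):
the `L`-algebra automorphism with

  `w_q (j(t^d)) = j(t^(d q))`,   `w_q (j(t^(d q))) = j(t^d)`     (`d ∣ M`).

Constructed through Program R's analytic comparison `ΦBar : FBar L N → Frac (WH0 Γ₀(N)) ⊆ Mer`, on
which `w_q` is composition with the matrix `W` of `WqMer`.
-/
import Mathlib
import Fermat.Agent.LSb.Val.WqMer

set_option autoImplicit false
set_option linter.unusedSectionVars false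

noncomputable section

namespace Fermat.Agent.LSb.Val

open UpperHalfPlane CongruenceSubgroup ModularCurve
open Fermat.Agent.ProgramR Fermat.Agent.ProgramR.BarField Fermat.Agent.ProgramR.LevelOne
open scoped MatrixGroups

attribute [local instance] Genus.cosetFintype

variable {L : Type*} [Field L] [Algebra ℚ L]

/-! ### generation of `FBar L N` -/

/-- a subfield of `FBar L N` containing the constants and all `j(t^d)`, `d ∣ N`, is everything -/
theorem subfield_eq_top (N : ℕ) [NeZero N] (S : Subfield (FBar L N))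
    (hc : ∀ a : L, algebraMap L (FBar L N) a ∈ S)
    (hj : ∀ (d : ℕ) [NeZero d] (hd : d ∣ N), jdBar (L := L) N d hd ∈ S) : S = ⊤ := by
  rw [eq_top_iff]
  rintro ⟨x, hx⟩ -
  let T : Subfield (LaurentSeries L) :=
    S.map (laurentBaseChange L (modularFunctionFieldFull N)).val.toRingHom
  suffices h : (laurentBaseChange L (modularFunctionFieldFull N)).toSubfield ≤ T by
    obtain ⟨y, hy, hyx⟩ := h hx
    have : y = ⟨x, hx⟩ := Subtype.ext hyx
    rw [← this]
    exact hy
  rw [laurentBaseChange, IntermediateField.adjoin, Subfield.closure_le]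
  rintro x (⟨a, rfl⟩ | ⟨y, hy, rfl⟩)
  · exact ⟨algebraMap L (FBar L N) a, hc a, rfl⟩
  · let T₀ : Subfield (LaurentSeries ℚ) := T.comap (coeffEmb L)
    suffices h : (modularFunctionFieldFull N).toSubfield ≤ T₀ from h hy
    rw [modularFunctionFieldFull, IntermediateField.adjoin, Subfield.closure_le]
    rintro x (⟨a, rfl⟩ | ⟨d, hd, hdN, rfl⟩)
    · refine ⟨algebraMap L (FBar L N) (algebraMap ℚ L a), hc _, ?_⟩
      show algebraMap L (LaurentSeries L) (algebraMap ℚ L a) =
        coeffEmb L (algebraMap ℚ (LaurentSeries ℚ) a)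
      rw [algebraMap_laurentSeries_eq_single, algebraMap_laurentSeries_eq_single, coeffEmb,
        coeffMap_single]
    · haveI := hd
      exact ⟨jdBar (L := L) N d hdN, hj d hdN, rfl⟩

/-! ### the comparison map to `Mer` -/

/-- `WH0 Γ₀(N) → Hol → Mer` -/
def holEmb (N : ℕ) : ↥(WH0 (Gamma0 N)) →+* Mer :=
  (algebraMap Hol Mer).comp (WH0.toHol (Gamma0 N)).toRingHom

theorem holEmb_injective (N : ℕ) : Function.Injective (holEmb N) :=
  (IsFractionRing.injective Hol Mer).comp (WH0.toHol_injective (Gamma0 N))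

/-- `Frac (WH0 Γ₀(N)) → Mer` -/
def ffEmb (N : ℕ) : WH0.FunField (Gamma0 N) →+* Mer :=
  IsFractionRing.lift (K := WH0.FunField (Gamma0 N)) (g := holEmb N) (holEmb_injective N)

theorem ffEmb_algebraMap (N : ℕ) (h : ↥(WH0 (Gamma0 N))) :
    ffEmb N (algebraMap _ (WH0.FunField (Gamma0 N)) h) =
      algebraMap Hol Mer (WH0.toHol (Gamma0 N) h) :=
  IsFractionRing.lift_algebraMap (holEmb_injective N) h

variable (N : ℕ) [NeZero N] (e : L →+* ℂ)

/-- the comparison map `FBar L N → Mer` -/
def toMer : FBar L N →+* Mer := (ffEmb N).comp (ΦBar N e)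

theorem toMer_injective : Function.Injective (toMer N e) := (toMer N e).injective

/-- the holomorphic function `j(d·)` -/
def jdHol (d : ℕ) [NeZero d] : Hol :=
  WH0.toHol (Gamma0 d) (jdWH0 d d dvd_rfl)

theorem jdHol_apply (d : ℕ) [NeZero d] (z : ℍ) : (jdHol d : ℍ → ℂ) z = jScaledFun d z := rfl

theorem toMer_algebraMap (a : L) :
    toMer N e (algebraMap L (FBar L N) a) = algebraMap Hol Mer (algebraMap ℂ Hol (e a)) := by
  rw [toMer, RingHom.comp_apply, ΦBar_algebraMap, ffEmb_algebraMap]
  rfl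

theorem toMer_jdBar (d : ℕ) [NeZero d] (hd : d ∣ N) :
    toMer N e (jdBar (L := L) N d hd) = algebraMap Hol Mer (jdHol d) := by
  rw [toMer, RingHom.comp_apply, ΦBar_jdBar, ffEmb_algebraMap]
  rfl

/-- `toMer` as an isomorphism onto its range -/
def toMerEquiv : FBar L N ≃+* (toMer N e).fieldRange :=
  RingEquiv.ofBijective (toMer N e).rangeRestrictField
    ⟨fun a b h => toMer_injective N e (congrArg Subtype.val h),
     fun ⟨y, hy⟩ => by
      obtain ⟨x, rfl⟩ := RingHom.mem_fieldRange.mp hy
      exact ⟨x, rfl⟩⟩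

theorem coe_toMerEquiv (f : FBar L N) :
    ((toMerEquiv N e f : (toMer N e).fieldRange) : Mer) = toMer N e f := rfl

/-! ### the Atkin–Lehner operator on `Mer` -/

section AL

variable (M q : ℕ) [NeZero M] [NeZero q] (x y : ℤ) (h : (q : ℤ) * x - (M : ℤ) * y = 1)

/-- composition with the Atkin–Lehner matrix -/
def wMer : Mer →+* Mer := merComp (alW M q x y h) (alW_det_pos M q x y h)

theorem wMer_const (c : ℂ) :
    wMer M q x y h (algebraMap Hol Mer (algebraMap ℂ Hol c)) =
      algebraMap Hol Mer (algebraMap ℂ Hol c) := by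
  rw [wMer, merComp_algebraMap]
  rfl

theorem wMer_jdHol (d : ℕ) [NeZero d] (hd : d ∣ M) :
    wMer M q x y h (algebraMap Hol Mer (jdHol d)) = algebraMap Hol Mer (jdHol (d * q)) := by
  rw [wMer, merComp_algebraMap]
  congr 1
  apply Hol.ext
  intro z
  rw [Hol.comp_apply, jdHol_apply, jdHol_apply]
  exact jScaledFun_alW M q x y h d hd z

theorem wMer_jdHol_mul (d : ℕ) [NeZero d] (hd : d ∣ M) :
    wMer M q x y h (algebraMap Hol Mer (jdHol (d * q))) = algebraMap Hol Mer (jdHol d) := by
  rw [wMer, merComp_algebraMap]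
  congr 1
  apply Hol.ext
  intro z
  rw [Hol.comp_apply, jdHol_apply, jdHol_apply]
  exact jScaledFun_mul_alW M q x y h d hd z

/-- divisors of `M q`, `q` prime -/
theorem dvd_mul_prime_cases {M q d : ℕ} (hq : q.Prime) (hd : d ∣ M * q) :
    d ∣ M ∨ ∃ d', d = d' * q ∧ d' ∣ M := by
  by_cases hqd : q ∣ d
  · right
    obtain ⟨d', rfl⟩ := hqd
    refine ⟨d', mul_comm _ _, ?_⟩
    rw [mul_comm q d'] at hd
    exact Nat.dvd_of_mul_dvd_mul_right hq.pos hd
  · left
    have hcop : Nat.Coprime d q := ((Nat.Prime.coprime_iff_not_dvd hq).mpr hqd).symm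
    exact hcop.dvd_of_dvd_mul_right hd

variable (hq : q.Prime)

include hq in
theorem wMer_toMer_mem (f : FBar L (M * q)) :
    wMer M q x y h (toMer (M * q) e f) ∈ (toMer (M * q) e).fieldRange := by
  let S : Subfield (FBar L (M * q)) :=
    (toMer (M * q) e).fieldRange.comap ((wMer M q x y h).comp (toMer (M * q) e))
  have hS : S = ⊤ := by
    apply subfield_eq_top
    · intro a
      show wMer M q x y h (toMer (M * q) e (algebraMap L _ a)) ∈ (toMer (M * q) e).fieldRange
      rw [toMer_algebraMap, wMer_const, ← toMer_algebraMap (M * q) e a]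
      exact RingHom.mem_fieldRange.mpr ⟨_, rfl⟩
    · intro d _ hd
      show wMer M q x y h (toMer (M * q) e (jdBar (L := L) (M * q) d hd)) ∈
        (toMer (M * q) e).fieldRange
      rw [toMer_jdBar]
      rcases dvd_mul_prime_cases hq hd with hdM | ⟨d', rfl, hdM⟩
      · rw [wMer_jdHol M q x y h d hdM,
          ← toMer_jdBar (M * q) e (d * q) (Nat.mul_dvd_mul_right hdM q)]
        exact RingHom.mem_fieldRange.mpr ⟨_, rfl⟩
      · haveI : NeZero d' := ⟨fun h0 => by
          subst h0
          exact (NeZero.ne (0 * q)) (zero_mul q)⟩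
        rw [wMer_jdHol_mul M q x y h d' hdM,
          ← toMer_jdBar (M * q) e d' (hdM.trans (Dvd.intro _ rfl))]
        exact RingHom.mem_fieldRange.mpr ⟨_, rfl⟩
  have : f ∈ S := by rw [hS]; exact Subfield.mem_top f
  exact this

/-- the Atkin–Lehner operator on `FBar L (M q)` as a ring homomorphism -/
def wqHom : FBar L (M * q) →+* FBar L (M * q) :=
  ((toMerEquiv (M * q) e).symm : (toMer (M * q) e).fieldRange →+* FBar L (M * q)).comp
    (((wMer M q x y h).comp (toMer (M * q) e)).codRestrict (toMer (M * q) e).fieldRange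
      (fun f => wMer_toMer_mem e M q x y h hq f))

theorem toMer_wqHom (f : FBar L (M * q)) :
    toMer (M * q) e (wqHom e M q x y h hq f) = wMer M q x y h (toMer (M * q) e f) := by
  rw [← coe_toMerEquiv]
  simp only [wqHom, RingHom.coe_comp, Function.comp_apply, RingHom.coe_coe,
    RingEquiv.apply_symm_apply]
  rfl

theorem wqHom_algebraMap (a : L) :
    wqHom e M q x y h hq (algebraMap L _ a) = algebraMap L _ a := by
  apply toMer_injective (M * q) e
  rw [toMer_wqHom, toMer_algebraMap, wMer_const]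

theorem wqHom_jdBar (d : ℕ) [NeZero d] (hd : d ∣ M) :
    wqHom e M q x y h hq (jdBar (L := L) (M * q) d (hd.trans (Dvd.intro _ rfl))) =
      jdBar (L := L) (M * q) (d * q) (Nat.mul_dvd_mul_right hd q) := by
  apply toMer_injective (M * q) e
  rw [toMer_wqHom, toMer_jdBar, toMer_jdBar, wMer_jdHol M q x y h d hd]

theorem wqHom_jdBar_mul (d : ℕ) [NeZero d] (hd : d ∣ M) :
    wqHom e M q x y h hq (jdBar (L := L) (M * q) (d * q) (Nat.mul_dvd_mul_right hd q)) =
      jdBar (L := L) (M * q) d (hd.trans (Dvd.intro _ rfl)) := by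
  apply toMer_injective (M * q) e
  rw [toMer_wqHom, toMer_jdBar, toMer_jdBar, wMer_jdHol_mul M q x y h d hd]

end AL

end Fermat.Agent.LSb.Val
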