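/-
LSb / Val / Wq  (helper9)

The Atkin–Lehner involution on `FBar (M q) = Q̄(X₀(M q))` (`q` prime, `q ∤ M`):

* `wq M q hq hqM : FBar (M * q) ≃ₐ[Q̄] FBar (M * q)`,
* `wq_jd`, `wq_jd_mul` : `j(t^d) ↔ j(t^(d q))` for `d ∣ M`,
* `wq_wq` : involution,
* `wq_alpha` : `wq ∘ α = β` (`α` the inclusion `FBar M ⊆ FBar (M q)`, `β` the map `t ↦ t^q`), `wq_beta`,
* `wq_coeffMap` : `wq` commutes with the coefficientwise action of `Gal(Q̄/ℚ)`.
-/
import Mathlib
import Fermat.Agent.LSb.Val.WqBar
import Fermat.Agent.S18lib.Setup.Modular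
import Fermat.Agent.ProgramR.BarField.Degree
import Fermat.Prelude.Def_ModularCurve_HeckeOperator
import Fermat.Prelude.Def_ModularCurve_ArithmeticGalois
import Fermat.Prelude.Thm_ModularCurve_coeffMap_qExpand

set_option autoImplicit false
set_option linter.unusedSectionVars false
set_option linter.style.haveILetI false

noncomputable section

namespace Fermat.Agent.LSb.Val

open ModularCurve Fermat.Agent.S18lib
open Fermat.Agent.ProgramR Fermat.Agent.ProgramR.BarField

local notation "Qb" => AlgebraicClosure ℚ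

/-! ### extensionality for ring homomorphisms out of `FBar L N` -/

theorem ringHom_ext_FBar {L : Type*} [Field L] [Algebra ℚ L] (N : ℕ) [NeZero N]
    {R' : Type*} [Field R'] (f g : BarField.FBar L N →+* R')
    (hc : ∀ a : L, f (algebraMap L (BarField.FBar L N) a) = g (algebraMap L (BarField.FBar L N) a))
    (hj : ∀ (d : ℕ) [NeZero d] (hd : d ∣ N), f (jdBar (L := L) N d hd) = g (jdBar (L := L) N d hd)) :
    f = g := by
  have h := subfield_eq_top N (f.eqLocusField g) hc (fun d _ hd => hj d hd)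
  refine RingHom.ext fun x => ?_
  have hx : x ∈ f.eqLocusField g := by rw [h]; exact Subfield.mem_top x
  exact hx

/-! ### the chosen data -/

/-- a fixed embedding `Q̄ → ℂ` -/
def embQb : Qb →+* ℂ := qbarEmb

theorem exists_bezout {M q : ℕ} (hq : q.Prime) (hqM : ¬ q ∣ M) :
    ∃ x y : ℤ, (q : ℤ) * x - (M : ℤ) * y = 1 := by
  have hcop : Nat.Coprime q M := (Nat.Prime.coprime_iff_not_dvd hq).mpr hqM
  have h1 : IsCoprime (q : ℤ) (M : ℤ) := Nat.isCoprime_iff_coprime.mpr hcop
  obtain ⟨a, b, hab⟩ := h1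
  exact ⟨a, -b, by linear_combination hab⟩

variable (M q : ℕ) [NeZero M] [NeZero q] (hq : q.Prime) (hqM : ¬ q ∣ M)

/-- the Atkin–Lehner operator as a ring homomorphism -/
def wqRingHom : FBar (M * q) →+* FBar (M * q) :=
  wqHom embQb M q (exists_bezout hq hqM).choose (exists_bezout hq hqM).choose_spec.choose
    (exists_bezout hq hqM).choose_spec.choose_spec hq

theorem wqRingHom_algebraMap (a : Qb) :
    wqRingHom M q hq hqM (algebraMap Qb (FBar (M * q)) a) = algebraMap Qb (FBar (M * q)) a :=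
  wqHom_algebraMap embQb M q _ _ _ hq a

/-- `j(t^d)` as an element of `FBar N` -/
abbrev jd (N d : ℕ) [NeZero d] (hd : d ∣ N) : FBar N := jdBar (L := Qb) N d hd

theorem coe_jd (N d : ℕ) [NeZero d] (hd : d ∣ N) :
    ((jd N d hd : FBar N) : LaurentSeries Qb) = coeffEmb Qb (qExpand ℚ d jq) := rfl

theorem wqRingHom_jd (d : ℕ) [NeZero d] (hd : d ∣ M) :
    wqRingHom M q hq hqM (jd (M * q) d (hd.trans (Dvd.intro _ rfl))) =
      jd (M * q) (d * q) (Nat.mul_dvd_mul_right hd q) :=
  wqHom_jdBar embQb M q _ _ _ hq d hd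

theorem wqRingHom_jd_mul (d : ℕ) [NeZero d] (hd : d ∣ M) :
    wqRingHom M q hq hqM (jd (M * q) (d * q) (Nat.mul_dvd_mul_right hd q)) =
      jd (M * q) d (hd.trans (Dvd.intro _ rfl)) :=
  wqHom_jdBar_mul embQb M q _ _ _ hq d hd

theorem wqRingHom_wqRingHom (f : FBar (M * q)) :
    wqRingHom M q hq hqM (wqRingHom M q hq hqM f) = f := by
  have h : (wqRingHom M q hq hqM).comp (wqRingHom M q hq hqM) = RingHom.id _ := by
    apply ringHom_ext_FBar (L := Qb) (M * q)
    · intro a
      simp only [RingHom.comp_apply, RingHom.id_apply]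
      rw [wqRingHom_algebraMap, wqRingHom_algebraMap]
    · intro d _ hd
      simp only [RingHom.comp_apply, RingHom.id_apply]
      rcases dvd_mul_prime_cases hq hd with hdM | ⟨d', rfl, hdM⟩
      · have e1 := wqRingHom_jd M q hq hqM d hdM
        have e2 := wqRingHom_jd_mul M q hq hqM d hdM
        rw [e1, e2]
      · haveI : NeZero d' := ⟨fun h0 => by
          subst h0
          exact (NeZero.ne (0 * q)) (zero_mul q)⟩
        have e1 := wqRingHom_jd M q hq hqM d' hdM
        have e2 := wqRingHom_jd_mul M q hq hqM d' hdM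
        rw [e2, e1]
  exact congrArg (fun φ : FBar (M * q) →+* FBar (M * q) => φ f) h

/-- the Atkin–Lehner operator as an algebra homomorphism -/
def wqAlgHom : FBar (M * q) →ₐ[Qb] FBar (M * q) :=
  { wqRingHom M q hq hqM with commutes' := wqRingHom_algebraMap M q hq hqM }

/-- **the Atkin–Lehner involution of `Q̄(X₀(M q))`** -/
def wq : FBar (M * q) ≃ₐ[Qb] FBar (M * q) :=
  AlgEquiv.ofAlgHom (wqAlgHom M q hq hqM) (wqAlgHom M q hq hqM)
    (AlgHom.ext (wqRingHom_wqRingHom M q hq hqM)) (AlgHom.ext (wqRingHom_wqRingHom M q hq hqM))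

theorem wq_apply (f : FBar (M * q)) : wq M q hq hqM f = wqRingHom M q hq hqM f := rfl

theorem wq_wq (f : FBar (M * q)) : wq M q hq hqM (wq M q hq hqM f) = f :=
  wqRingHom_wqRingHom M q hq hqM f

theorem wq_symm : (wq M q hq hqM).symm = wq M q hq hqM := by
  refine AlgEquiv.ext fun f => ?_
  apply (wq M q hq hqM).injective
  rw [AlgEquiv.apply_symm_apply, wq_wq]

theorem wq_jd (d : ℕ) [NeZero d] (hd : d ∣ M) :
    wq M q hq hqM (jd (M * q) d (hd.trans (Dvd.intro _ rfl))) =
      jd (M * q) (d * q) (Nat.mul_dvd_mul_right hd q) :=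
  wqRingHom_jd M q hq hqM d hd

theorem wq_jd_mul (d : ℕ) [NeZero d] (hd : d ∣ M) :
    wq M q hq hqM (jd (M * q) (d * q) (Nat.mul_dvd_mul_right hd q)) =
      jd (M * q) d (hd.trans (Dvd.intro _ rfl)) :=
  wqRingHom_jd_mul M q hq hqM d hd

/-! ### `w_q` and the degeneracy maps -/

theorem qExpand_congr_nat {R : Type*} [CommRing R] {n m : ℕ} [NeZero n] [NeZero m] (h : n = m)
    (x : LaurentSeries R) : qExpand R n x = qExpand R m x := by
  subst h
  rfl

theorem alpha_jd (d : ℕ) [NeZero d] (hd : d ∣ M) :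
    heckeAlphaBar Qb M q (jd M d hd) = jd (M * q) d (hd.trans (Dvd.intro _ rfl)) :=
  Subtype.ext rfl

theorem beta_jd (d : ℕ) [NeZero d] (hd : d ∣ M) :
    heckeBetaBar Qb M q (jd M d hd) = jd (M * q) (d * q) (Nat.mul_dvd_mul_right hd q) := by
  apply Subtype.ext
  rw [coe_heckeBetaBar, coe_jd, coe_jd]
  show qExpand Qb q (coeffMap (algebraMap ℚ Qb) (qExpand ℚ d jq)) =
    coeffMap (algebraMap ℚ Qb) (qExpand ℚ (d * q) jq)
  rw [← coeffMap_qExpand, qExpand_qExpand]
  congr 1
  exact qExpand_congr_nat (mul_comm q d) jq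

/-- `w_q ∘ α = β`: on the `q`-old subfield `FBar M`, `w_q` is `f(t) ↦ f(t^q)` -/
theorem wq_alpha (f : FBar M) :
    wq M q hq hqM (heckeAlphaBar Qb M q f) = heckeBetaBar Qb M q f := by
  have h : ((wq M q hq hqM : FBar (M * q) →+* FBar (M * q))).comp
      (heckeAlphaBar Qb M q : FBar M →+* FBar (M * q)) =
        (heckeBetaBar Qb M q : FBar M →+* FBar (M * q)) := by
    apply ringHom_ext_FBar (L := Qb) M
    · intro a
      simp only [RingHom.comp_apply, RingHom.coe_coe, AlgHom.commutes, AlgEquiv.commutes]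
    · intro d _ hd
      simp only [RingHom.comp_apply, RingHom.coe_coe]
      have e1 := alpha_jd M q d hd
      have e2 := beta_jd M q d hd
      have e3 := wq_jd M q hq hqM d hd
      rw [e1, e3, e2]
  exact congrArg (fun φ : FBar M →+* FBar (M * q) => φ f) h

/-- `w_q ∘ β = α` -/
theorem wq_beta (f : FBar M) :
    wq M q hq hqM (heckeBetaBar Qb M q f) = heckeAlphaBar Qb M q f := by
  rw [← wq_alpha M q hq hqM f, wq_wq]

/-! ### `w_q` is defined over `ℚ` -/

theorem arithmeticRingAut_jd (N d : ℕ) [NeZero d] (hd : d ∣ N) (σ : Qb ≃ₐ[ℚ] Qb) :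
    arithmeticRingAut (modularFunctionFieldFull N) σ (jd N d hd) = jd N d hd := by
  apply Subtype.ext
  show coeffMap (σ : Qb →+* Qb) (coeffMap (algebraMap ℚ Qb) (qExpand ℚ d jq)) =
    coeffMap (algebraMap ℚ Qb) (qExpand ℚ d jq)
  rw [coeffMap_coeffMap]
  exact coeffMap_congr (Subsingleton.elim _ _) _

/-- **`w_q` commutes with the coefficientwise action of `Gal(Q̄/ℚ)`** -/
theorem wq_arithmeticRingAut (σ : Qb ≃ₐ[ℚ] Qb) (f : FBar (M * q)) :
    wq M q hq hqM (arithmeticRingAut (modularFunctionFieldFull (M * q)) σ f) =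
      arithmeticRingAut (modularFunctionFieldFull (M * q)) σ (wq M q hq hqM f) := by
  have h : ((wq M q hq hqM : FBar (M * q) →+* FBar (M * q))).comp
      ((arithmeticRingAut (modularFunctionFieldFull (M * q)) σ : FBar (M * q) ≃+* FBar (M * q)) :
        FBar (M * q) →+* FBar (M * q)) =
      ((arithmeticRingAut (modularFunctionFieldFull (M * q)) σ : FBar (M * q) ≃+* FBar (M * q)) :
        FBar (M * q) →+* FBar (M * q)).comp
        ((wq M q hq hqM : FBar (M * q) →+* FBar (M * q))) := by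
    apply ringHom_ext_FBar (L := Qb) (M * q)
    · intro a
      simp only [RingHom.comp_apply, RingHom.coe_coe, AlgEquiv.commutes]
      rw [arithmeticRingAut_algebraMap, AlgEquiv.commutes]
    · intro d _ hd
      simp only [RingHom.comp_apply, RingHom.coe_coe]
      rw [arithmeticRingAut_jd]
      rcases dvd_mul_prime_cases hq hd with hdM | ⟨d', rfl, hdM⟩
      · have e1 := wq_jd M q hq hqM d hdM
        rw [e1, arithmeticRingAut_jd]
      · haveI : NeZero d' := ⟨fun h0 => by
          subst h0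
          exact (NeZero.ne (0 * q)) (zero_mul q)⟩
        have e2 := wq_jd_mul M q hq hqM d' hdM
        rw [e2, arithmeticRingAut_jd]
  exact congrArg (fun φ : FBar (M * q) →+* FBar (M * q) => φ f) h

/-- coefficientwise form -/
theorem coe_wq_coeffMap (σ : Qb ≃ₐ[ℚ] Qb) (f : FBar (M * q))
    (hf : coeffMap (σ : Qb →+* Qb) (f : LaurentSeries Qb) ∈ modularFunctionFieldBar (M * q)) :
    ((wq M q hq hqM ⟨_, hf⟩ : FBar (M * q)) : LaurentSeries Qb) =
      coeffMap (σ : Qb →+* Qb) ((wq M q hq hqM f : FBar (M * q)) : LaurentSeries Qb) :=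
  congrArg Subtype.val (wq_arithmeticRingAut M q hq hqM σ f)

end Fermat.Agent.LSb.Val
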