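/-
LSb / Val / Newton  (helper9)

Newton approximation without completeness.  `R` a local ring, `φ : R →+* S`, `red : S →+* κ` a map
to a field detecting units of `S`.  If `u ∈ ker red` is a root of `Ψ ∈ R[X]`
with `Ψ(0) ∈ π R` (`π ∈ 𝔪_R`) and `Ψ'(0) ∈ Rˣ`, then `u` is approximated by elements of `π R` to any
`π`-adic order inside `S`:  `∀ n ≥ 1, ∃ ρ ∈ π R, u - φ ρ ∈ π^n S`.
-/
import Mathlib

set_option autoImplicit false

namespace Fermat.Agent.LSb.Val

open Polynomial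

variable {R S κ : Type*} [CommRing R] [IsLocalRing R] [CommRing S] [Field κ]
  (φ : R →+* S) (red : S →+* κ)

/-- in a local ring, `a + m` is a unit if `a` is a unit and `m` is in the maximal ideal -/
theorem isUnit_add_of_mem_maximalIdeal {a m : R} (ha : IsUnit a)
    (hm : m ∈ IsLocalRing.maximalIdeal R) : IsUnit (a + m) := by
  by_contra h
  have h1 : a + m ∈ IsLocalRing.maximalIdeal R := (IsLocalRing.mem_maximalIdeal _).mpr h
  have h2 : a ∈ IsLocalRing.maximalIdeal R := by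
    have := (IsLocalRing.maximalIdeal R).sub_mem h1 hm
    simpa using this
  exact (IsLocalRing.mem_maximalIdeal _).mp h2 ha

omit [IsLocalRing R] in
theorem eval_sub_eval_zero_mem (Ψ : R[X]) {I : Ideal R} {ρ : R} (hρ : ρ ∈ I) :
    Ψ.eval ρ - Ψ.eval 0 ∈ I := by
  obtain ⟨z, hz⟩ := Ψ.evalSubFactor ρ 0
  rw [hz, sub_zero]
  exact I.mul_mem_left z hρ

/-- **Newton approximation** -/
theorem newton_approx (hred : ∀ s : S, red s ≠ 0 → IsUnit s)
    {π : R} (hπ : π ∈ IsLocalRing.maximalIdeal R) (Ψ : R[X]) {u : S} (hu : red u = 0)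
    (hroot : Ψ.eval₂ φ u = 0) (h0 : Ψ.eval 0 ∈ Ideal.span {π})
    (h1 : IsUnit (Ψ.derivative.eval 0)) (n : ℕ) (hn : 1 ≤ n) :
    ∃ ρ ∈ Ideal.span {π}, ∃ s : S, u - φ ρ = φ π ^ n * s := by
  have hspan : Ideal.span {π} ≤ IsLocalRing.maximalIdeal R :=
    (Ideal.span_singleton_le_iff_mem _).mpr hπ
  set f : S[X] := Ψ.map φ with hf
  have hfeval : ∀ r : R, f.eval (φ r) = φ (Ψ.eval r) := fun r => by
    rw [hf, eval_map, eval₂_at_apply]
  have hfder : ∀ r : R, f.derivative.eval (φ r) = φ (Ψ.derivative.eval r) := fun r => by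
    rw [hf, derivative_map, eval_map, eval₂_at_apply]
  have hfu : f.eval u = 0 := by rw [hf, eval_map]; exact hroot
  induction n, hn using Nat.le_induction with
  | base =>
    -- `u ∈ Ψ(0) S ⊆ π S`
    obtain ⟨k, hk⟩ := f.binomExpansion 0 u
    rw [zero_add, hfu] at hk
    have h00 := hfeval 0
    have h01 := hfder 0
    rw [map_zero] at h00 h01
    rw [h00, h01] at hk
    -- unit
    have hunit : IsUnit (φ (Ψ.derivative.eval 0) + k * u) := by
      apply hred
      rw [map_add, map_mul, hu, mul_zero, add_zero]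
      intro h
      obtain ⟨v, hv⟩ := h1
      have : red (φ ((v⁻¹ : Rˣ) : R)) * red (φ (Ψ.derivative.eval 0)) = 1 := by
        rw [← map_mul, ← map_mul, ← hv, Units.inv_mul, map_one, map_one]
      rw [h, mul_zero] at this
      exact zero_ne_one this
    obtain ⟨w, hw⟩ := hunit
    obtain ⟨c, hc⟩ := Ideal.mem_span_singleton'.mp h0
    refine ⟨0, Ideal.zero_mem _, -(φ c) * ((w⁻¹ : Sˣ) : S), ?_⟩
    rw [map_zero, sub_zero, pow_one]
    have e1 : u * (w : S) = -φ (Ψ.eval 0) := by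
      rw [hw]
      linear_combination -hk
    have e2 : u = -φ (Ψ.eval 0) * ((w⁻¹ : Sˣ) : S) := by
      rw [← e1, mul_assoc, Units.mul_inv, mul_one]
    rw [e2, ← hc, map_mul]
    ring
  | succ n hn ih =>
    obtain ⟨ρ, hρ, s, hs⟩ := ih
    -- `Ψ'(ρ)` is a unit of `R`
    have hder : IsUnit (Ψ.derivative.eval ρ) := by
      have := isUnit_add_of_mem_maximalIdeal h1
        (hspan (eval_sub_eval_zero_mem Ψ.derivative hρ))
      simpa using this
    obtain ⟨ε, hε⟩ := hder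
    have hΨρ : Ψ.eval ρ ∈ Ideal.span {π} := by
      have := (Ideal.span {π}).add_mem (eval_sub_eval_zero_mem Ψ hρ) h0
      simpa using this
    obtain ⟨k, hk⟩ := f.binomExpansion (φ ρ) (u - φ ρ)
    rw [add_sub_cancel, hfu, hfeval, hfder] at hk
    refine ⟨ρ - ((ε⁻¹ : Rˣ) : R) * Ψ.eval ρ,
      (Ideal.span {π}).sub_mem hρ ((Ideal.span {π}).mul_mem_left _ hΨρ),
      -φ ((ε⁻¹ : Rˣ) : R) * k * φ π ^ (n - 1) * s ^ 2, ?_⟩
    have hinv : φ ((ε⁻¹ : Rˣ) : R) * φ (Ψ.derivative.eval ρ) = 1 := by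
      rw [← map_mul, ← hε, Units.inv_mul, map_one]
    have hpow : φ π ^ (n + 1) * φ π ^ (n - 1) = φ π ^ n * φ π ^ n := by
      rw [← pow_add, ← pow_add]
      congr 1
      omega
    rw [map_sub, map_mul]
    have e3 : u - (φ ρ - φ ((ε⁻¹ : Rˣ) : R) * φ (Ψ.eval ρ)) =
        -φ ((ε⁻¹ : Rˣ) : R) * k * (u - φ ρ) ^ 2 := by
      linear_combination (-φ ((ε⁻¹ : Rˣ) : R)) * hk + (φ ρ - u) * hinv
    rw [e3, hs]
    linear_combination (φ ((ε⁻¹ : Rˣ) : R) * k * s ^ 2) * hpow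

end Fermat.Agent.LSb.Val
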