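/-
LSb / Val / Dense  (helper9)

Dense extension of a Gauss-type valuation ring.  `A ⊆ L` a valuation ring, `α : K → F` fields over
`L`, `DK ⊆ K` a valuation ring with `DK ∩ L = A` and value group that of `A`; `O' ⊆ F` a subring with
a unit-detecting map `red : O' → κ` to a field, `α (DK) ⊆ O'`, `O' ∩ L ⊆ A`.  If `F` is generated as a
ring by `α (K)` and a set `S ⊆ O'` of elements that are approximated by `α (DK)` modulo `c O'` for every
nonzero constant `c`, and `A` has rank one (`⋂ πⁿ A = 0` for a nonzero nonunit `π`), then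

* every `x ∈ Fˣ` is `c⁻¹ (α ρ + m)` with `c ∈ Lˣ`, `ρ ∈ DKˣ`, `red m = 0`;
* `O'` is a valuation ring of `F`, with value group that of `A`;
* every element of `O'` is congruent modulo `ker red` to an element of `α (DK)`.
-/
import Mathlib
import Fermat.Agent.LSb.Val.Newton

set_option autoImplicit false
set_option linter.unusedSectionVars false
set_option linter.unusedVariables false

namespace Fermat.Agent.LSb.Val

variable {L : Type*} [Field L] {K F κ : Type*} [Field K] [Field F] [Field κ]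
  [Algebra L K] [Algebra L F]

/-- the hypotheses of the dense extension theorem -/
structure DenseData (A : ValuationSubring L) (α : K →ₐ[L] F) (DK : ValuationSubring K)
    (O' : Subring F) (red : O' →+* κ) (π : L) : Prop where
  inv_mem_of_red_ne_zero : ∀ x : O', red x ≠ 0 → (x : F)⁻¹ ∈ O'
  map_mem : ∀ x ∈ DK, α x ∈ O'
  const_mem_iff : ∀ c : L, algebraMap L K c ∈ DK ↔ c ∈ A
  const_mem : ∀ c : L, algebraMap L F c ∈ O' → c ∈ A
  value_group : ∀ x : K, x ≠ 0 →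
    ∃ c : L, c ≠ 0 ∧ algebraMap L K c * x ∈ DK ∧ (algebraMap L K c * x)⁻¹ ∈ DK
  pi_mem : π ∈ A
  pi_ne_zero : π ≠ 0
  pi_inv_not_mem : π⁻¹ ∉ A
  rank_one' : ∀ c : L, c ∈ A → c⁻¹ ∉ A → c ≠ 0 → ∀ d : L, d ≠ 0 → ∃ n : ℕ, d * (c ^ n)⁻¹ ∉ A

namespace DenseData

variable {A : ValuationSubring L} {α : K →ₐ[L] F} {DK : ValuationSubring K}
  {O' : Subring F} {red : O' →+* κ} {π : L} (D : DenseData A α DK O' red π)

include D

theorem rank_one : ∀ c : L, c ≠ 0 → ∃ n : ℕ, c * (π ^ n)⁻¹ ∉ A :=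
  D.rank_one' π D.pi_mem D.pi_inv_not_mem D.pi_ne_zero

theorem const_mem_O {c : L} (hc : c ∈ A) : algebraMap L F c ∈ O' := by
  have := D.map_mem _ ((D.const_mem_iff c).mpr hc)
  rwa [AlgHom.commutes] at this

/-- `red` vanishes on constants of the maximal ideal of `A` -/
theorem red_const_eq_zero {c : L} (hc : c ∈ A) (hc' : c⁻¹ ∉ A) :
    red ⟨algebraMap L F c, D.const_mem_O hc⟩ = 0 := by
  by_contra h
  have h1 := D.inv_mem_of_red_ne_zero _ h
  have h2 : (algebraMap L F c)⁻¹ = algebraMap L F c⁻¹ := (map_inv₀ _ _).symm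
  rw [show ((⟨algebraMap L F c, D.const_mem_O hc⟩ : O') : F) = algebraMap L F c from rfl, h2] at h1
  exact hc' (D.const_mem _ h1)

/-- `x` is approximated by `α (DK)` to any `π`-adic order inside `O'` -/
def IsApprox (D : DenseData A α DK O' red π) (x : F) : Prop :=
  x ∈ O' ∧ ∀ c : L, c ≠ 0 → ∃ ρ ∈ DK, ∃ s ∈ O', x - α ρ = algebraMap L F c * s

/-- the subring of approximable elements -/
def approxSubring : Subring F where
  carrier := {x | D.IsApprox x}
  zero_mem' := ⟨O'.zero_mem, fun c _ => ⟨0, DK.zero_mem, 0, O'.zero_mem, by simp⟩⟩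
  one_mem' := ⟨O'.one_mem, fun c _ => ⟨1, DK.one_mem, 0, O'.zero_mem, by simp⟩⟩
  add_mem' := by
    rintro x y ⟨hx, hx'⟩ ⟨hy, hy'⟩
    refine ⟨O'.add_mem hx hy, fun c hc => ?_⟩
    obtain ⟨ρ, hρ, s, hs, e1⟩ := hx' c hc
    obtain ⟨σ, hσ, t, ht, e2⟩ := hy' c hc
    refine ⟨ρ + σ, DK.add_mem _ _ hρ hσ, s + t, O'.add_mem hs ht, ?_⟩
    rw [map_add]
    linear_combination e1 + e2
  neg_mem' := by
    rintro x ⟨hx, hx'⟩
    refine ⟨O'.neg_mem hx, fun c hc => ?_⟩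
    obtain ⟨ρ, hρ, s, hs, e1⟩ := hx' c hc
    refine ⟨-ρ, DK.neg_mem _ hρ, -s, O'.neg_mem hs, ?_⟩
    rw [map_neg]
    linear_combination -e1
  mul_mem' := by
    rintro x y ⟨hx, hx'⟩ ⟨hy, hy'⟩
    refine ⟨O'.mul_mem hx hy, fun c hc => ?_⟩
    obtain ⟨ρ, hρ, s, hs, e1⟩ := hx' c hc
    obtain ⟨σ, hσ, t, ht, e2⟩ := hy' c hc
    refine ⟨ρ * σ, DK.mul_mem _ _ hρ hσ, x * t + α σ * s,
      O'.add_mem (O'.mul_mem hx ht) (O'.mul_mem (D.map_mem σ hσ) hs), ?_⟩
    rw [map_mul]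
    linear_combination x * e2 + α σ * e1

theorem mem_approxSubring {x : F} : x ∈ D.approxSubring ↔ D.IsApprox x := Iff.rfl

theorem map_mem_approx {x : K} (hx : x ∈ DK) : α x ∈ D.approxSubring :=
  ⟨D.map_mem x hx, fun c _ => ⟨x, hx, 0, O'.zero_mem, by simp⟩⟩

theorem const_mem_approx {c : L} (hc : c ∈ A) : algebraMap L F c ∈ D.approxSubring := by
  have := D.map_mem_approx ((D.const_mem_iff c).mpr hc)
  rwa [AlgHom.commutes] at this

/-- every element of `F` is a constant multiple of an approximable element -/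
theorem exists_const_mul_mem_approx (S : Set F) (hS : ∀ θ ∈ S, D.IsApprox θ)
    (hgen : Subring.closure (Set.range α ∪ S) = ⊤) (x : F) :
    ∃ c : L, c ≠ 0 ∧ algebraMap L F c * x ∈ D.approxSubring := by
  have hx : x ∈ Subring.closure (Set.range α ∪ S) := by rw [hgen]; exact Subring.mem_top x
  induction hx using Subring.closure_induction with
  | mem x hx =>
    rcases hx with ⟨k, rfl⟩ | hx
    · by_cases hk : k = 0
      · exact ⟨1, one_ne_zero, by rw [hk, map_zero, mul_zero]; exact Subring.zero_mem _⟩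
      · obtain ⟨c, hc, h1, -⟩ := D.value_group k hk
        refine ⟨c, hc, ?_⟩
        have := D.map_mem_approx h1
        rwa [map_mul, AlgHom.commutes] at this
    · exact ⟨1, one_ne_zero, by rw [map_one, one_mul]; exact hS x hx⟩
  | zero => exact ⟨1, one_ne_zero, by rw [mul_zero]; exact Subring.zero_mem _⟩
  | one => exact ⟨1, one_ne_zero, by rw [map_one, one_mul]; exact Subring.one_mem _⟩
  | add x y _ _ hx hy =>
    obtain ⟨c₁, hc₁, h1⟩ := hx
    obtain ⟨c₂, hc₂, h2⟩ := hy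
    rcases A.mem_or_inv_mem (c₂ / c₁) with h | h
    · refine ⟨c₂, hc₂, ?_⟩
      have e : algebraMap L F c₂ * (x + y) =
          algebraMap L F (c₂ / c₁) * (algebraMap L F c₁ * x) + algebraMap L F c₂ * y := by
        rw [← mul_assoc, ← map_mul, div_mul_cancel₀ _ hc₁]
        ring
      rw [e]
      exact Subring.add_mem _ (Subring.mul_mem _ (D.const_mem_approx h) h1) h2
    · rw [inv_div] at h
      refine ⟨c₁, hc₁, ?_⟩
      have e : algebraMap L F c₁ * (x + y) =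
          algebraMap L F c₁ * x + algebraMap L F (c₁ / c₂) * (algebraMap L F c₂ * y) := by
        rw [← mul_assoc (algebraMap L F (c₁ / c₂)), ← map_mul, div_mul_cancel₀ _ hc₂]
        ring
      rw [e]
      exact Subring.add_mem _ h1 (Subring.mul_mem _ (D.const_mem_approx h) h2)
  | neg x _ hx =>
    obtain ⟨c, hc, h1⟩ := hx
    exact ⟨c, hc, by rw [mul_neg]; exact Subring.neg_mem _ h1⟩
  | mul x y _ _ hx hy =>
    obtain ⟨c₁, hc₁, h1⟩ := hx
    obtain ⟨c₂, hc₂, h2⟩ := hy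
    refine ⟨c₁ * c₂, mul_ne_zero hc₁ hc₂, ?_⟩
    have e : algebraMap L F (c₁ * c₂) * (x * y) =
        (algebraMap L F c₁ * x) * (algebraMap L F c₂ * y) := by
      rw [map_mul]; ring
    rw [e]
    exact Subring.mul_mem _ h1 h2

theorem piF_ne_zero : algebraMap L F π ≠ 0 :=
  (map_ne_zero (algebraMap L F)).mpr D.pi_ne_zero

/-- if `y y' = c₀` is constant and `y ∈ πⁿ O'` then `c₀ / πⁿ ∈ A` -/
theorem const_div_mem {y y' z : F} {c₀ : L} {n : ℕ} (hy' : y' ∈ O') (hz : z ∈ O')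
    (hyy' : y * y' = algebraMap L F c₀) (hyz : y = algebraMap L F π ^ n * z) :
    c₀ * (π ^ n)⁻¹ ∈ A := by
  apply D.const_mem
  have h1 : algebraMap L F (c₀ * (π ^ n)⁻¹) = z * y' := by
    rw [map_mul, map_inv₀, map_pow, ← hyy', hyz]
    field_simp [D.piF_ne_zero]
  rw [h1]
  exact O'.mul_mem hz hy'

/-- **Main theorem**: every nonzero `x ∈ F` is, up to a constant, `α ρ + m` with `ρ` a unit of `DK`
and `red m = 0`. -/
theorem exists_const_mul_eq (S : Set F) (hS : ∀ θ ∈ S, D.IsApprox θ)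
    (hgen : Subring.closure (Set.range α ∪ S) = ⊤) {x : F} (hx : x ≠ 0) :
    ∃ c : L, c ≠ 0 ∧ ∃ ρ : K, ρ ≠ 0 ∧ ρ ∈ DK ∧ ρ⁻¹ ∈ DK ∧
      ∃ (m : F) (hm : m ∈ O'), red ⟨m, hm⟩ = 0 ∧ algebraMap L F c * x = α ρ + m := by
  obtain ⟨c₁, hc₁, hy⟩ := D.exists_const_mul_mem_approx S hS hgen x
  obtain ⟨c₂, hc₂, hy'⟩ := D.exists_const_mul_mem_approx S hS hgen x⁻¹
  have hyy' : (algebraMap L F c₁ * x) * (algebraMap L F c₂ * x⁻¹) = algebraMap L F (c₁ * c₂) := by
    rw [map_mul]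
    field_simp
  obtain ⟨n, hn⟩ := D.rank_one (c₁ * c₂) (mul_ne_zero hc₁ hc₂)
  obtain ⟨ρ, hρ, s, hs, e⟩ := hy.2 (π ^ n) (pow_ne_zero n D.pi_ne_zero)
  rw [map_pow] at e
  have hy'O : algebraMap L F c₂ * x⁻¹ ∈ O' := hy'.1
  by_cases hρ0 : ρ = 0
  · exfalso
    apply hn
    refine D.const_div_mem hy'O hs hyy' ?_
    rw [hρ0, map_zero, sub_zero] at e
    exact e
  obtain ⟨c, hc, hε, hε'⟩ := D.value_group ρ hρ0
  -- `c⁻¹ ∈ A`
  have hcinv : c⁻¹ ∈ A := by
    rw [← D.const_mem_iff]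
    have : algebraMap L K c⁻¹ = ρ * (algebraMap L K c * ρ)⁻¹ := by
      rw [map_inv₀, mul_inv]
      field_simp
    rw [this]
    exact DK.mul_mem _ _ hρ hε'
  have hcK : algebraMap L K c ≠ 0 := (map_ne_zero (algebraMap L K)).mpr hc
  by_cases h : (c * π ^ n)⁻¹ ∈ A
  · -- then `ρ ∈ πⁿ DK`: contradiction
    exfalso
    apply hn
    have hr : algebraMap L K (c * π ^ n)⁻¹ * (algebraMap L K c * ρ) ∈ DK :=
      DK.mul_mem _ _ ((D.const_mem_iff _).mpr h) hε
    refine D.const_div_mem (z := α (algebraMap L K (c * π ^ n)⁻¹ * (algebraMap L K c * ρ)) + s)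
      hy'O (O'.add_mem (D.map_mem _ hr) hs) hyy' ?_
    have e1 : α (algebraMap L K (c * π ^ n)⁻¹ * (algebraMap L K c * ρ)) =
        (algebraMap L F π ^ n)⁻¹ * α ρ := by
      rw [map_mul, map_mul, AlgHom.commutes, AlgHom.commutes, map_inv₀, map_mul, map_pow]
      have hcF : algebraMap L F c ≠ 0 := (map_ne_zero (algebraMap L F)).mpr hc
      have := D.piF_ne_zero
      field_simp
    rw [e1, mul_add, mul_inv_cancel_left₀ (pow_ne_zero _ D.piF_ne_zero)]
    linear_combination e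
  · have hcπ : c * π ^ n ∈ A := by
      rcases A.mem_or_inv_mem (c * π ^ n) with h' | h'
      · exact h'
      · exact absurd h' h
    refine ⟨c * c₁, mul_ne_zero hc hc₁, algebraMap L K c * ρ, mul_ne_zero hcK hρ0, hε, hε',
      algebraMap L F (c * π ^ n) * s, O'.mul_mem (D.const_mem_O hcπ) hs, ?_, ?_⟩
    · have : (⟨algebraMap L F (c * π ^ n) * s, O'.mul_mem (D.const_mem_O hcπ) hs⟩ : O') =
          ⟨algebraMap L F (c * π ^ n), D.const_mem_O hcπ⟩ * ⟨s, hs⟩ := rfl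
      rw [this, map_mul, D.red_const_eq_zero hcπ h, zero_mul]
    · rw [map_mul (algebraMap L F), map_mul α, AlgHom.commutes, map_mul (algebraMap L F) c,
        map_pow]
      linear_combination algebraMap L F c * e

/-- units of `DK` map to units of `O'` -/
theorem red_map_ne_zero {ρ : K} (hρ0 : ρ ≠ 0) (hρ : ρ ∈ DK) (hρ' : ρ⁻¹ ∈ DK) :
    red ⟨α ρ, D.map_mem ρ hρ⟩ ≠ 0 := by
  intro h
  have h1 : (⟨α ρ, D.map_mem ρ hρ⟩ : O') * ⟨α ρ⁻¹, D.map_mem _ hρ'⟩ = 1 := by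
    apply Subtype.ext
    show α ρ * α ρ⁻¹ = 1
    rw [← map_mul, mul_inv_cancel₀ hρ0, map_one]
  have h2 := congrArg red h1
  rw [map_mul, h, zero_mul, map_one] at h2
  exact zero_ne_one h2

/-- `α ρ + m` is a unit of `O'` when `ρ` is a unit of `DK` and `red m = 0` -/
theorem unit_add_small {ρ : K} (hρ0 : ρ ≠ 0) (hρ : ρ ∈ DK) (hρ' : ρ⁻¹ ∈ DK) {m : F} (hm : m ∈ O')
    (hred : red ⟨m, hm⟩ = 0) :
    ∃ h : α ρ + m ∈ O', red ⟨α ρ + m, h⟩ = red ⟨α ρ, D.map_mem ρ hρ⟩ ∧ (α ρ + m)⁻¹ ∈ O' := by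
  have hu : α ρ + m ∈ O' := O'.add_mem (D.map_mem ρ hρ) hm
  have h1 : red ⟨α ρ + m, hu⟩ = red ⟨α ρ, D.map_mem ρ hρ⟩ := by
    have : (⟨α ρ + m, hu⟩ : O') = ⟨α ρ, D.map_mem ρ hρ⟩ + ⟨m, hm⟩ := rfl
    rw [this, map_add, hred, add_zero]
  refine ⟨hu, h1, ?_⟩
  have h2 : red ⟨α ρ + m, hu⟩ ≠ 0 := by rw [h1]; exact D.red_map_ne_zero hρ0 hρ hρ'
  exact D.inv_mem_of_red_ne_zero _ h2

/-- every nonzero `x` is a constant times a unit of `O'` -/
theorem exists_const_mul_unit (S : Set F) (hS : ∀ θ ∈ S, D.IsApprox θ)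
    (hgen : Subring.closure (Set.range α ∪ S) = ⊤) {x : F} (hx : x ≠ 0) :
    ∃ c : L, c ≠ 0 ∧ algebraMap L F c * x ∈ O' ∧ (algebraMap L F c * x)⁻¹ ∈ O' := by
  obtain ⟨c, hc, ρ, hρ0, hρ, hρ', m, hm, hred, e⟩ := D.exists_const_mul_eq S hS hgen hx
  obtain ⟨hu, -, hu'⟩ := D.unit_add_small hρ0 hρ hρ' hm hred
  exact ⟨c, hc, by rw [e]; exact hu, by rw [e]; exact hu'⟩

/-- `O'` is a valuation ring -/
theorem mem_or_inv_mem (S : Set F) (hS : ∀ θ ∈ S, D.IsApprox θ)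
    (hgen : Subring.closure (Set.range α ∪ S) = ⊤) (x : F) : x ∈ O' ∨ x⁻¹ ∈ O' := by
  by_cases hx : x = 0
  · left; rw [hx]; exact O'.zero_mem
  obtain ⟨c, hc, h1, h2⟩ := D.exists_const_mul_unit S hS hgen hx
  have hcF : algebraMap L F c ≠ 0 := (map_ne_zero (algebraMap L F)).mpr hc
  rcases A.mem_or_inv_mem c with h | h
  · right
    have : x⁻¹ = algebraMap L F c * (algebraMap L F c * x)⁻¹ := by
      rw [mul_inv]
      field_simp
    rw [this]
    exact O'.mul_mem (D.const_mem_O h) h2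
  · left
    have : x = algebraMap L F c⁻¹ * (algebraMap L F c * x) := by
      rw [map_inv₀]
      field_simp
    rw [this]
    exact O'.mul_mem (D.const_mem_O h) h1

/-- every element of `O'` is congruent to an element of `α (DK)` modulo `ker red` -/
theorem exists_approx_mod (S : Set F) (hS : ∀ θ ∈ S, D.IsApprox θ)
    (hgen : Subring.closure (Set.range α ∪ S) = ⊤) {x : F} (hx : x ∈ O') :
    ∃ ρ ∈ DK, ∃ h : x - α ρ ∈ O', red ⟨x - α ρ, h⟩ = 0 := by
  by_cases hr : red ⟨x, hx⟩ = 0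
  · have e0 : x - α 0 = x := by rw [map_zero, sub_zero]
    have hmem : x - α 0 ∈ O' := by rw [e0]; exact hx
    refine ⟨0, DK.zero_mem, hmem, ?_⟩
    have : (⟨x - α 0, hmem⟩ : O') = ⟨x, hx⟩ := Subtype.ext e0
    rw [this, hr]
  have hx0 : x ≠ 0 := by
    rintro rfl
    exact hr (map_zero red)
  have hxinv : x⁻¹ ∈ O' := D.inv_mem_of_red_ne_zero ⟨x, hx⟩ hr
  obtain ⟨c, hc, ρ, hρ0, hρ, hρ', m, hm, hred, e⟩ := D.exists_const_mul_eq S hS hgen hx0
  obtain ⟨hu, -, hu'⟩ := D.unit_add_small hρ0 hρ hρ' hm hred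
  have hcF : algebraMap L F c ≠ 0 := (map_ne_zero (algebraMap L F)).mpr hc
  -- `c` and `c⁻¹` lie in `A`
  have hcA : c ∈ A := by
    apply D.const_mem
    have : algebraMap L F c = (α ρ + m) * x⁻¹ := by
      rw [← e]; field_simp
    rw [this]
    exact O'.mul_mem hu hxinv
  have hcA' : c⁻¹ ∈ A := by
    apply D.const_mem
    have : algebraMap L F c⁻¹ = x * (α ρ + m)⁻¹ := by
      rw [← e, map_inv₀]; field_simp
    rw [this]
    exact O'.mul_mem hx hu'
  refine ⟨algebraMap L K c⁻¹ * ρ, DK.mul_mem _ _ ((D.const_mem_iff _).mpr hcA') hρ, ?_⟩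
  have e2 : x - α (algebraMap L K c⁻¹ * ρ) = algebraMap L F c⁻¹ * m := by
    rw [map_mul, AlgHom.commutes, map_inv₀]
    field_simp
    linear_combination e
  have hmem : algebraMap L F c⁻¹ * m ∈ O' := O'.mul_mem (D.const_mem_O hcA') hm
  refine ⟨by rw [e2]; exact hmem, ?_⟩
  have : (⟨x - α (algebraMap L K c⁻¹ * ρ), by rw [e2]; exact hmem⟩ : O') =
      ⟨algebraMap L F c⁻¹, D.const_mem_O hcA'⟩ * ⟨m, hm⟩ := Subtype.ext e2
  rw [this, map_mul, hred, mul_zero]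

/-! ### producing approximable elements -/

/-- approximation modulo all powers of one nonunit suffices -/
theorem isApprox_of_pow {x : F} (hx : x ∈ O') {π' : L} (hπ' : π' ∈ A) (hπ'inv : π'⁻¹ ∉ A)
    (hπ'0 : π' ≠ 0)
    (h : ∀ n : ℕ, 1 ≤ n → ∃ ρ ∈ DK, ∃ s ∈ O', x - α ρ = algebraMap L F π' ^ n * s) :
    D.IsApprox x := by
  refine ⟨hx, fun c hc => ?_⟩
  obtain ⟨n, hn⟩ := D.rank_one' π' hπ' hπ'inv hπ'0 c hc
  -- `π'^(n+1) / c ∈ A`
  have h1 : π' ^ (n + 1) * c⁻¹ ∈ A := by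
    have h2 : π' ^ n * c⁻¹ ∈ A := by
      rcases A.mem_or_inv_mem (c * (π' ^ n)⁻¹) with h' | h'
      · exact absurd h' hn
      · rwa [mul_inv, inv_inv, mul_comm] at h'
    have : π' ^ (n + 1) * c⁻¹ = π' * (π' ^ n * c⁻¹) := by ring
    rw [this]
    exact A.mul_mem _ _ hπ' h2
  obtain ⟨ρ, hρ, s, hs, e⟩ := h (n + 1) (Nat.le_add_left 1 n)
  refine ⟨ρ, hρ, algebraMap L F (π' ^ (n + 1) * c⁻¹) * s, O'.mul_mem (D.const_mem_O h1) hs, ?_⟩
  rw [e, ← mul_assoc, ← map_mul, ← map_pow]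
  congr 2
  field_simp

/-- the restriction of `α` to the valuation rings -/
def phi : DK →+* O' where
  toFun x := ⟨α x, D.map_mem x x.2⟩
  map_one' := Subtype.ext (map_one α)
  map_mul' x y := Subtype.ext (map_mul α (x : K) (y : K))
  map_zero' := Subtype.ext (map_zero α)
  map_add' x y := Subtype.ext (map_add α (x : K) (y : K))

theorem coe_phi (x : DK) : ((D.phi x : O') : F) = α x := rfl

/-- every element of the maximal ideal of `DK` is divisible by a nonzero nonunit constant -/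
theorem exists_const_dvd {x : DK} (hx : x ∈ IsLocalRing.maximalIdeal DK) :
    ∃ c : L, ∃ hc : c ∈ A, c⁻¹ ∉ A ∧ c ≠ 0 ∧
      x ∈ Ideal.span {(⟨algebraMap L K c, (D.const_mem_iff c).mpr hc⟩ : DK)} := by
  by_cases hx0 : x = 0
  · exact ⟨π, D.pi_mem, D.pi_inv_not_mem, D.pi_ne_zero, by rw [hx0]; exact Ideal.zero_mem _⟩
  have hx0' : (x : K) ≠ 0 := fun h => hx0 (Subtype.ext h)
  obtain ⟨c, hc, h1, h2⟩ := D.value_group (x : K) hx0'
  have hcK : algebraMap L K c ≠ 0 := (map_ne_zero (algebraMap L K)).mpr hc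
  -- `c⁻¹ ∈ A`
  have hcinv : c⁻¹ ∈ A := by
    rw [← D.const_mem_iff]
    have : algebraMap L K c⁻¹ = (x : K) * (algebraMap L K c * x)⁻¹ := by
      rw [map_inv₀, mul_inv]
      field_simp
    rw [this]
    exact DK.mul_mem _ _ x.2 h2
  refine ⟨c⁻¹, hcinv, ?_, inv_ne_zero hc, ?_⟩
  · -- `c ∉ A`, otherwise `x` is a unit
    rw [inv_inv]
    intro hcA
    have hxinv : (x : K)⁻¹ ∈ DK := by
      have : (x : K)⁻¹ = algebraMap L K c * (algebraMap L K c * x)⁻¹ := by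
        rw [mul_inv]
        field_simp
      rw [this]
      exact DK.mul_mem _ _ ((D.const_mem_iff c).mpr hcA) h2
    have hunit : IsUnit x := by
      refine ⟨⟨x, ⟨(x : K)⁻¹, hxinv⟩, Subtype.ext (mul_inv_cancel₀ hx0'),
        Subtype.ext (inv_mul_cancel₀ hx0')⟩, rfl⟩
    exact (IsLocalRing.mem_maximalIdeal _).mp hx hunit
  · rw [Ideal.mem_span_singleton']
    refine ⟨⟨algebraMap L K c * x, h1⟩, Subtype.ext ?_⟩
    show algebraMap L K c * x * algebraMap L K c⁻¹ = x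
    rw [map_inv₀]
    field_simp

/-- **Newton**: a root `u ∈ ker red` of a polynomial `Ψ` over `DK` with `Ψ(0) ∈ 𝔪` and `Ψ'(0)` a unit
is approximable. -/
theorem isApprox_of_root (Ψ : Polynomial DK) {u : O'} (hu : red u = 0)
    (hroot : Ψ.eval₂ D.phi u = 0) (h0 : Ψ.eval 0 ∈ IsLocalRing.maximalIdeal DK)
    (h1 : IsUnit (Ψ.derivative.eval 0)) : D.IsApprox (u : F) := by
  obtain ⟨c, hc, hcinv, hc0, hdvd⟩ := D.exists_const_dvd h0
  have hcmax : (⟨algebraMap L K c, (D.const_mem_iff c).mpr hc⟩ : DK) ∈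
      IsLocalRing.maximalIdeal DK := by
    rw [IsLocalRing.mem_maximalIdeal, mem_nonunits_iff]
    rintro ⟨v, hv⟩
    apply hcinv
    rw [← D.const_mem_iff]
    have h2 : ((v⁻¹ : DKˣ) : DK) * ⟨algebraMap L K c, (D.const_mem_iff c).mpr hc⟩ = 1 := by
      rw [← hv, Units.inv_mul]
    have h3 : (((v⁻¹ : DKˣ) : DK) : K) * algebraMap L K c = 1 := congrArg Subtype.val h2
    have hcK : algebraMap L K c ≠ 0 := (map_ne_zero (algebraMap L K)).mpr hc0
    have h4 : algebraMap L K c⁻¹ = (((v⁻¹ : DKˣ) : DK) : K) := by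
      rw [map_inv₀]
      field_simp
      rw [mul_comm]; exact h3.symm
    rw [h4]
    exact ((v⁻¹ : DKˣ) : DK).2
  have hred : ∀ s : O', red s ≠ 0 → IsUnit s := by
    intro s hs
    have hs0 : (s : F) ≠ 0 := by
      intro h
      apply hs
      have : s = 0 := Subtype.ext h
      rw [this, map_zero]
    exact ⟨⟨s, ⟨(s : F)⁻¹, D.inv_mem_of_red_ne_zero s hs⟩, Subtype.ext (mul_inv_cancel₀ hs0),
      Subtype.ext (inv_mul_cancel₀ hs0)⟩, rfl⟩
  refine D.isApprox_of_pow u.2 hc hcinv hc0 fun n hn => ?_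
  obtain ⟨ρ, -, s, hs⟩ := newton_approx D.phi red hred hcmax Ψ hu hroot hdvd h1 n hn
  refine ⟨ρ, ρ.2, s, s.2, ?_⟩
  have := congrArg (Subtype.val : O' → F) hs
  simpa [coe_phi, AlgHom.commutes] using this

end DenseData

end Fermat.Agent.LSb.Val
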