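/-
LSb / Val / SubRed  (helper9)

The reduction map on S18's `gaussSubring N A = {a / b : a, b ∈ IntRing N A, b̄ ≠ 0}` for an
ARBITRARY level `N` (no hypothesis `ℓ ∤ N`): a ring homomorphism `subRed N A : gaussSubring N A →
FRes A N` detecting units; and the dense-extension data for `FBar M ⊆ FBar (M q)` at the prime `q`.
-/
import Mathlib
import Fermat.Agent.LSb.Val.Dense
import Fermat.Agent.S18lib.V.GaussU.Level2
import Fermat.Agent.S18lib.V.GaussU.Datum
import Fermat.Agent.S18lib.Asm.RankOne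

set_option autoImplicit false
set_option linter.unusedSectionVars false
set_option linter.unusedVariables false

noncomputable section

namespace Fermat.Agent.LSb.Val

open ModularCurve Fermat.Agent.S18lib Fermat.Agent.S18lib.V

local notation "Qb" => AlgebraicClosure ℚ

section SubRed

variable (N : ℕ) [NeZero N] (A : ValuationSubring Qb)

/-- the reduction map of the Gauss subring, any level -/
def subRed : gaussSubring N A →+* FRes A N where
  toFun x := redFun x.1 x.2
  map_one' := by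
    refine (redFun_eq (x := (1 : FBar N)) ⟨_, _, isRep_one⟩ isRep_one).trans ?_
    rw [elemK_one, div_one]
  map_mul' := by
    rintro ⟨x, a, b, h⟩ ⟨y, a', b', h'⟩
    rw [redFun_eq _ h, redFun_eq _ h']
    have := redFun_eq (x := x * y) ⟨_, _, h.mul h'⟩ (h.mul h')
    refine this.trans ?_
    rw [elemK_mul, elemK_mul, mul_div_mul_comm]
  map_zero' := by
    refine (redFun_eq (x := (0 : FBar N)) ⟨_, _, isRep_zero⟩ isRep_zero).trans ?_
    rw [elemK_zero, zero_div]
  map_add' := by
    rintro ⟨x, a, b, h⟩ ⟨y, a', b', h'⟩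
    rw [redFun_eq _ h, redFun_eq _ h']
    have := redFun_eq (x := x + y) ⟨_, _, h.add h'⟩ (h.add h')
    refine this.trans ?_
    rw [elemK_add, elemK_mul, elemK_mul, elemK_mul, div_add_div _ _ h.1 h'.1,
      mul_comm (elemK b) (elemK a')]

variable {N A}

theorem subRed_apply {x : FBar N} (hx : x ∈ gaussSubring N A) {a b : IntRing N A}
    (h : IsRep x a b) : subRed N A ⟨x, hx⟩ = elemK a / elemK b :=
  redFun_eq hx h

theorem inv_mem_of_subRed_ne_zero (x : gaussSubring N A) (hx : subRed N A x ≠ 0) :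
    (x : FBar N)⁻¹ ∈ gaussSubring N A := by
  obtain ⟨x, a, b, h⟩ := x
  rw [subRed_apply _ h] at hx
  have ha : elemK a ≠ 0 := fun h0 => hx (by rw [h0, zero_div])
  exact ⟨b, a, h.inv ha⟩

/-- integral modular functions lie in the Gauss subring and reduce to their reduction -/
theorem elemL_mem_gaussSubring (a : IntRing N A) : elemL a ∈ gaussSubring N A :=
  ⟨a, 1, by rw [elemK_one]; exact one_ne_zero, by rw [elemL_one, mul_one]⟩

theorem subRed_elemL (a : IntRing N A) :
    subRed N A ⟨elemL a, elemL_mem_gaussSubring a⟩ = elemK a := by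
  have hrep : IsRep (elemL a) a 1 :=
    ⟨by rw [elemK_one]; exact one_ne_zero, by rw [elemL_one, mul_one]⟩
  rw [subRed_apply _ hrep, elemK_one, div_one]

end SubRed

/-! ### the dense-extension data for `FBar M ⊆ FBar (M q)` -/

section Data

variable (M q : ℕ) [NeZero M] [NeZero q] [Fact q.Prime] (A : ValuationSubring Qb)
  (hqM : ¬ q ∣ M) (hA : A.LiesOverPrime q)

/-- the inclusion `FBar M ⊆ FBar (M q)` -/
abbrev alphaL : FBar M →ₐ[Qb] FBar (M * q) := inclL (Dvd.intro q rfl)

theorem mem_nonunits_iff_inv_not_mem {c : Qb} (hc : c ∈ A) (hc0 : c ≠ 0) :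
    c ∈ A.nonunits ↔ c⁻¹ ∉ A := by
  rw [ValuationSubring.mem_nonunits_iff, ← not_le, ← A.valuation_le_one_iff c⁻¹, map_inv₀,
    inv_le_one₀ ((A.valuation.pos_iff).mpr hc0)]

/-- **the dense-extension data** -/
theorem denseData :
    DenseData A (alphaL M q) (gaussDatum M A hqM hA).O (gaussSubring (M * q) A)
      (subRed (M * q) A) ((q : ℕ) : Qb) where
  inv_mem_of_red_ne_zero := inv_mem_of_subRed_ne_zero
  map_mem := by
    rintro x ⟨a, b, hab⟩
    exact ⟨_, _, hab.incl A (Dvd.intro q rfl)⟩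
  const_mem_iff := (gaussDatum M A hqM hA).algebraMap_mem_iff
  const_mem := fun c hc => (algebraMap_mem_gaussSubring_iff c).mp hc
  value_group := by
    intro x hx
    obtain ⟨c, hc, u, hu⟩ := (gaussDatum M A hqM hA).exists_const_mul_isUnit x hx
    refine ⟨c, hc, by rw [hu]; exact (u : (gaussDatum M A hqM hA).O).2, ?_⟩
    rw [hu]
    have h1 : (((u⁻¹ : ((gaussDatum M A hqM hA).O)ˣ) : (gaussDatum M A hqM hA).O) : FBar M) =
        (((u : (gaussDatum M A hqM hA).O) : FBar M))⁻¹ := by
      have h2 : ((u : (gaussDatum M A hqM hA).O) : FBar M) *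
          (((u⁻¹ : ((gaussDatum M A hqM hA).O)ˣ) : (gaussDatum M A hqM hA).O) : FBar M) = 1 :=
        congrArg Subtype.val (u.mul_inv)
      exact eq_inv_of_mul_eq_one_right h2
    rw [← h1]
    exact ((u⁻¹ : ((gaussDatum M A hqM hA).O)ˣ) : (gaussDatum M A hqM hA).O).2
  pi_mem := by
    have h : ((q : ℕ) : Qb) = ((q : ℤ) : Qb) := by push_cast; rfl
    rw [h]
    exact intCast_mem A q
  pi_ne_zero := Nat.cast_ne_zero.mpr (NeZero.ne q)
  pi_inv_not_mem := by
    have h : ((q : ℕ) : Qb) = ((q : ℤ) : Qb) := by push_cast; rfl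
    have hmem : ((q : ℕ) : Qb) ∈ A := by rw [h]; exact intCast_mem A q
    exact (mem_nonunits_iff_inv_not_mem A hmem (Nat.cast_ne_zero.mpr (NeZero.ne q))).mp hA
  rank_one' := by
    intro c hc hcinv hc0 d hd
    -- reduce to `d ∈ A`
    have hcmax : (⟨c, hc⟩ : A) ∈ IsLocalRing.maximalIdeal A := by
      exact (A.valuation_lt_one_iff ⟨c, hc⟩).mpr
        (A.mem_nonunits_iff.mp ((mem_nonunits_iff_inv_not_mem A hc hc0).mpr hcinv))
    by_cases hdA : d ∈ A
    · obtain ⟨n, hn⟩ := rankOne_of_liesOverPrime A hA ⟨c, hc⟩ hcmax ⟨d, hdA⟩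
        (fun h => hd (congrArg Subtype.val h))
      refine ⟨n, fun hmem => hn ?_⟩
      refine ⟨⟨d * (c ^ n)⁻¹, hmem⟩, Subtype.ext ?_⟩
      show d = c ^ n * (d * (c ^ n)⁻¹)
      field_simp
    · exact ⟨0, by simpa using hdA⟩

end Data

end Fermat.Agent.LSb.Val
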