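/-
LSb / Val / Kron  (helper9)

The modular equation `Φ_q(j(t^(d q)), j(t^d)) = 0` inside `FBar (M q)` (`d ∣ M`) and the ring-theoretic
generation of `FBar (M q)` over `FBar M` by the `j(t^(d q))`.
-/
import Mathlib
import Fermat.Agent.LSb.Val.Wq
import Fermat.Agent.LSb.Val.SubRed
import Fermat.Agent.S37lib.ConjNorm.KroneckerPlace

set_option autoImplicit false
set_option linter.unusedSectionVars false
set_option linter.unusedVariables false
set_option linter.style.haveILetI false

noncomputable section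

namespace Fermat.Agent.LSb.Val

open ModularCurve Polynomial Fermat.Agent.S18lib Fermat.Agent.S18lib.V Fermat.Agent.S28lib
open Fermat.Agent.S37lib.ConjNorm

local notation "Qb" => AlgebraicClosure ℚ

/-! ### a generation lemma -/

theorem subring_closure_eq_top_of_algebraic {K F : Type*} [Field K] [Field F] (α : K →+* F)
    (S : Set F) (halg : ∀ θ ∈ S, ∃ p : Polynomial K, p ≠ 0 ∧ p.eval₂ α θ = 0)
    (hfield : Subfield.closure (Set.range α ∪ S) = ⊤) :
    Subring.closure (Set.range α ∪ S) = ⊤ := by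
  letI : Algebra K F := α.toAlgebra
  have hS : ∀ x ∈ S, IsAlgebraic K x := by
    intro x hx
    obtain ⟨p, hp, hpx⟩ := halg x hx
    exact ⟨p, hp, hpx⟩
  have h1 := IntermediateField.adjoin_toSubalgebra_of_isAlgebraic (F := K) (S := S) hS
  have h2 : IntermediateField.adjoin K S = ⊤ := by
    rw [eq_top_iff]
    intro x _
    have hx : x ∈ Subfield.closure (Set.range α ∪ S) := by rw [hfield]; exact Subfield.mem_top x
    exact hx
  rw [h2] at h1
  have h3 := Algebra.adjoin_eq_ring_closure (R := K) (A := F) S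
  rw [eq_top_iff]
  intro x _
  have hx : x ∈ (Algebra.adjoin K S).toSubring := by
    rw [← h1]
    exact Subalgebra.mem_toSubring.mpr (by simp)
  rw [h3] at hx
  exact hx

/-! ### the modular equation in `FBar (M q)` -/

section Equation

variable (N : ℕ) [NeZero N]

/-- the `t`-expansion of `j(t^d)` -/
theorem coe_jd_eq (d : ℕ) [NeZero d] (hd : d ∣ N) :
    ((jd N d hd : FBar N) : LaurentSeries Qb) = qExpand Qb d (jqModC Qb) := by
  rw [coe_jd]
  show coeffMap (algebraMap ℚ Qb) (qExpand ℚ d jq) = qExpand Qb d (jqModC Qb)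
  rw [coeffMap_qExpand, ← jqModC_rat, coeffMap_jqModC]

/-- constants `Zb → FBar N` -/
def iotaFB : Zb →+* FBar N :=
  (algebraMap Qb (FBar N)).comp (Fermat.Agent.S18lib.Gink.intToQbar : Zb →+* Qb)

theorem val_comp_iotaFB :
    ((modularFunctionFieldBar N).val : FBar N →+* LaurentSeries Qb).comp (iotaFB N) =
      (HahnSeries.C : Qb →+* LaurentSeries Qb).comp
        (Fermat.Agent.S18lib.Gink.intToQbar : Zb →+* Qb) := by
  refine RingHom.ext fun c => ?_
  show algebraMap Qb (LaurentSeries Qb) _ = _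
  rw [Kummer.algebraMap_laurent_eq_C]
  rfl

variable (q : ℕ) [Fact q.Prime] [NeZero q]

/-- **`Φ_q(j(t^(d q)), j(t^d)) = 0`** -/
theorem biEval₂_jd_mul (d : ℕ) [NeZero d] (hd : d ∣ N) (hdq : d * q ∣ N) :
    biEval₂ (iotaFB N) (phiZ q) (jd N (d * q) hdq) (jd N d hd) = 0 := by
  apply Subtype.val_injective
  have h1 := map_biEval₂ ((modularFunctionFieldBar N).val : FBar N →+* LaurentSeries Qb)
    (iotaFB N) (phiZ q) (jd N (d * q) hdq) (jd N d hd)
  have hq0 : ((q : ℕ) : Qb) ≠ 0 := Nat.cast_ne_zero.mpr (NeZero.ne q)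
  have h2 := biEval₂_qExpand_jqModC (k := Qb) (p := q)
    (Fermat.Agent.S18lib.Gink.intToQbar : Zb →+* Qb) hq0
  have h3 := map_biEval₂ (qExpand Qb d)
    ((HahnSeries.C : Qb →+* LaurentSeries Qb).comp
      (Fermat.Agent.S18lib.Gink.intToQbar : Zb →+* Qb)) (phiZ q)
    (qExpand Qb q (jqModC Qb)) (jqModC Qb)
  rw [h2, map_zero] at h3
  have h4 : (qExpand Qb d).comp ((HahnSeries.C : Qb →+* LaurentSeries Qb).comp
      (Fermat.Agent.S18lib.Gink.intToQbar : Zb →+* Qb)) =
      (HahnSeries.C : Qb →+* LaurentSeries Qb).comp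
        (Fermat.Agent.S18lib.Gink.intToQbar : Zb →+* Qb) := by
    refine RingHom.ext fun c => ?_
    simp only [RingHom.comp_apply, qExpand_C]
  rw [h4, qExpand_qExpand] at h3
  show ((modularFunctionFieldBar N).val : FBar N →+* LaurentSeries Qb) _ = 0
  rw [h1, val_comp_iotaFB]
  have e1 : ((modularFunctionFieldBar N).val : FBar N →+* LaurentSeries Qb) (jd N (d * q) hdq) =
      qExpand Qb (d * q) (jqModC Qb) := coe_jd_eq N (d * q) hdq
  have e2 : ((modularFunctionFieldBar N).val : FBar N →+* LaurentSeries Qb) (jd N d hd) =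
      qExpand Qb d (jqModC Qb) := coe_jd_eq N d hd
  rw [e1, e2]
  exact h3.symm

end Equation

/-! ### generation of `FBar (M q)` over `FBar M` -/

section Gen

variable (M q : ℕ) [NeZero M] [NeZero q] [Fact q.Prime]

/-- the generators `j(t^(d q))`, `d ∣ M` -/
def genSet : Set (FBar (M * q)) :=
  {x | ∃ (d : ℕ) (_ : NeZero d) (hd : d ∣ M), x = jd (M * q) (d * q) (Nat.mul_dvd_mul_right hd q)}

theorem alphaL_jd (d : ℕ) [NeZero d] (hd : d ∣ M) :
    alphaL M q (jd M d hd) = jd (M * q) d (hd.trans (Dvd.intro _ rfl)) :=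
  Subtype.ext (by rw [coe_inclL, coe_jd, coe_jd])

theorem alphaL_comp_iotaFB :
    ((alphaL M q : FBar M →ₐ[Qb] FBar (M * q)) : FBar M →+* FBar (M * q)).comp (iotaFB M) =
      iotaFB (M * q) := by
  refine RingHom.ext fun c => ?_
  simp only [iotaFB, RingHom.comp_apply, RingHom.coe_coe, AlgHom.commutes]

/-- the polynomial `Φ_q(X, j(t^d))` over `FBar M` -/
def phiAt (d : ℕ) [NeZero d] (hd : d ∣ M) : Polynomial (FBar M) :=
  (phiZ q).map (Polynomial.eval₂RingHom (iotaFB M) (jd M d hd))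

theorem phiAt_monic (d : ℕ) [NeZero d] (hd : d ∣ M) : (phiAt M q d hd).Monic :=
  (phiZ_monic q).map _

theorem phiAt_eval₂ (d : ℕ) [NeZero d] (hd : d ∣ M) :
    (phiAt M q d hd).eval₂ ((alphaL M q : FBar M →ₐ[Qb] FBar (M * q)) : FBar M →+* FBar (M * q))
      (jd (M * q) (d * q) (Nat.mul_dvd_mul_right hd q)) = 0 := by
  rw [phiAt, Polynomial.eval₂_map, comp_eval₂RingHom, alphaL_comp_iotaFB]
  have h := biEval₂_jd_mul (M * q) q d (hd.trans (Dvd.intro _ rfl)) (Nat.mul_dvd_mul_right hd q)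
  have e : ((alphaL M q : FBar M →ₐ[Qb] FBar (M * q)) : FBar M →+* FBar (M * q)) (jd M d hd) =
      jd (M * q) d (hd.trans (Dvd.intro _ rfl)) := alphaL_jd M q d hd
  rw [e]
  exact h

theorem subfield_closure_genSet :
    Subfield.closure (Set.range (alphaL M q) ∪ genSet M q) = ⊤ := by
  have hq : q.Prime := Fact.out
  apply subfield_eq_top (L := Qb) (M * q)
  · intro a
    apply Subfield.subset_closure
    left
    exact ⟨algebraMap Qb (FBar M) a, AlgHom.commutes _ a⟩
  · intro d _ hd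
    apply Subfield.subset_closure
    rcases dvd_mul_prime_cases hq hd with hdM | ⟨d', rfl, hdM⟩
    · left
      exact ⟨jd M d hdM, alphaL_jd M q d hdM⟩
    · right
      haveI : NeZero d' := ⟨fun h0 => by
        subst h0
        exact (NeZero.ne (0 * q)) (zero_mul q)⟩
      exact ⟨d', inferInstance, hdM, rfl⟩

/-- **`FBar (M q)` is generated as a ring by `FBar M` and the `j(t^(d q))`, `d ∣ M`** -/
theorem subring_closure_genSet :
    Subring.closure (Set.range (alphaL M q) ∪ genSet M q) = ⊤ := by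
  refine subring_closure_eq_top_of_algebraic
    ((alphaL M q : FBar M →ₐ[Qb] FBar (M * q)) : FBar M →+* FBar (M * q)) (genSet M q) ?_
    (subfield_closure_genSet M q)
  rintro θ ⟨d, hd0, hd, rfl⟩
  exact ⟨phiAt M q d hd, (phiAt_monic M q d hd).ne_zero, phiAt_eval₂ M q d hd⟩

end Gen

end Fermat.Agent.LSb.Val
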