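/-
LSb / Val / KronNewton  (helper9)

Every generator `j(t^(d q))` (`d ∣ M`) of `FBar (M q)` over `FBar M` is approximable by level-`M`
Gauss-integral functions (Newton iteration on `Ψ(U) = Φ_q(U + j_d^q, j_d)`, with Kronecker's
congruence giving `Ψ(0) ≡ 0`, `Ψ'(0) ≡ j̄_d^(q²) - j̄_d ≠ 0`).
-/
import Mathlib
import Fermat.Agent.LSb.Val.Kron

set_option autoImplicit false
set_option linter.unusedSectionVars false
set_option linter.unusedVariables false
set_option linter.style.haveILetI false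

noncomputable section

namespace Fermat.Agent.LSb.Val

open ModularCurve Polynomial Fermat.Agent.S18lib Fermat.Agent.S18lib.V Fermat.Agent.S28lib
open Fermat.Agent.S37lib.ConjNorm

local notation "Qb" => AlgebraicClosure ℚ

/-! ### Kronecker's congruence, evaluated -/

section Char

variable {κ : Type*} [Field κ] (q : ℕ) [Fact q.Prime] [NeZero q] [CharP κ q]

theorem biEval₂_phiZ_char (ι' : Zb →+* κ) (x' y' : κ) :
    biEval₂ ι' (phiZ q) x' y' = (x' ^ q - y') * (x' - y' ^ q) := by
  have h4 := biEval₂_map ι' (RingHom.id κ) (phiZ q) x' y'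
  rw [RingHom.id_comp, kronecker q ι', biEval₂_kronecker] at h4
  exact h4.symm

theorem phiZ_map_char (ι' : Zb →+* κ) (y' : κ) :
    (phiZ q).map (Polynomial.eval₂RingHom ι' y') = (X ^ q - C y') * (X - C (y' ^ q)) := by
  have h1 : (Polynomial.eval₂RingHom (RingHom.id κ) y').comp (Polynomial.mapRingHom ι') =
      Polynomial.eval₂RingHom ι' y' := by
    rw [eval₂RingHom_comp_mapRingHom, RingHom.id_comp]
  rw [← h1, ← Polynomial.map_map, kronecker q ι']
  simp [Polynomial.map_mul, Polynomial.map_sub, Polynomial.map_pow]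

end Char

/-! ### the Newton data of a generator -/

section Newton

variable (M q : ℕ) [NeZero M] [NeZero q] [Fact q.Prime] (A : ValuationSubring Qb)
  (hqM : ¬ q ∣ M) (hA : A.LiesOverPrime q)

local notation "kA" => IsLocalRing.ResidueField A

/-- the integral `j(t^d)` at level `N` -/
def jI (N d : ℕ) [NeZero N] [NeZero d] (hd : d ∣ N) : IntRing N A := ⟨jqNModC A d, jqNModC_mem hd⟩

theorem elemL_jI (N d : ℕ) [NeZero N] [NeZero d] (hd : d ∣ N) : elemL (jI A N d hd) = jd N d hd := by
  apply Subtype.ext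
  rw [coe_elemL, coe_jd_eq]
  show coeffMap A.subtype (jqNModC A d) = _
  rw [coeffMap_jqNModC]
  rfl

theorem coe_elemK_jI (N d : ℕ) [NeZero N] [NeZero d] (hd : d ∣ N) :
    ((elemK (jI A N d hd) : FRes A N) : LaurentSeries kA) = qExpand kA d (jqModC kA) := by
  rw [coe_elemK]
  show coeffMap (IsLocalRing.residue A) (jqNModC A d) = _
  rw [coeffMap_jqNModC]
  rfl

/-- `j̄(t^d)^(q²) ≠ j̄(t^d)` -/
theorem elemK_jI_pow_ne (N d : ℕ) [NeZero N] [NeZero d] (hd : d ∣ N) :
    (elemK (jI A N d hd) ^ q) ^ q - elemK (jI A N d hd) ≠ 0 := by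
  intro h
  have h1 := congrArg (Subtype.val : FRes A N → LaurentSeries kA) h
  have h2 : ((qExpand kA d (jqModC kA)) ^ q) ^ q - qExpand kA d (jqModC kA) = 0 := by
    rw [← coe_elemK_jI A N d hd]
    exact h1
  rw [← map_pow, ← map_pow, ← map_sub] at h2
  have h3 : ((jqModC kA) ^ q) ^ q - jqModC kA = 0 :=
    qExpand_injective (R := kA) d (h2.trans (map_zero _).symm)
  have h4 : Polynomial.aeval (jqModC kA) ((X ^ q) ^ q - X : kA[X]) = 0 := by
    rw [map_sub, map_pow, map_pow, aeval_X]
    exact h3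
  have h5 := aeval_jqModC_injective (R := kA) (h4.trans (map_zero _).symm)
  have hq2 : 1 < q * q := by
    have := (Fact.out : q.Prime).two_le
    nlinarith
  have h6 := congrArg (fun p : kA[X] => p.coeff 1) h5
  simp only [← pow_mul, coeff_sub, coeff_X_pow, coeff_X_one, coeff_zero] at h6
  rw [if_neg (by omega)] at h6
  simp at h6

/-- `j(t^d)` is Gauss-integral at level `M` -/
theorem jd_mem_O (d : ℕ) [NeZero d] (hd : d ∣ M) : jd M d hd ∈ (gaussDatum M A hqM hA).O := by
  rw [← elemL_jI A M d hd]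
  exact elemL_mem_gaussDatum_O M A hqM hA _

/-- `j(t^d)` as an element of the level-`M` Gauss ring -/
def yDK (d : ℕ) [NeZero d] (hd : d ∣ M) : (gaussDatum M A hqM hA).O :=
  ⟨jd M d hd, jd_mem_O M q A hqM hA d hd⟩

theorem red_yDK (d : ℕ) [NeZero d] (hd : d ∣ M) :
    (gaussDatum M A hqM hA).red (yDK M q A hqM hA d hd) = elemK (jI A M d hd) := by
  have h1 := gaussDatum_redF_elemL M A hqM hA (jI A M d hd)
  rw [GaussDatum.redF_of_mem _ (elemL_mem_gaussDatum_O M A hqM hA _)] at h1
  rw [← h1]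
  congr 1
  exact Subtype.ext (elemL_jI A M d hd).symm

/-- constants `Zb → O_M` -/
def iotaDK : Zb →+* (gaussDatum M A hqM hA).O :=
  (iotaFB M).codRestrict (gaussDatum M A hqM hA).O
    (fun c => (gaussDatum M A hqM hA).algebraMap_mem (Fermat.Agent.S18lib.Gink.intToA A c))

theorem coe_iotaDK (c : Zb) : ((iotaDK M q A hqM hA c : (gaussDatum M A hqM hA).O) : FBar M) =
    iotaFB M c := rfl

/-- `Φ_q(X, j_d)` over the Gauss ring -/
def phiDK (d : ℕ) [NeZero d] (hd : d ∣ M) : Polynomial (gaussDatum M A hqM hA).O :=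
  (phiZ q).map (Polynomial.eval₂RingHom (iotaDK M q A hqM hA) (yDK M q A hqM hA d hd))

/-- `Ψ(U) = Φ_q(U + j_d^q, j_d)` -/
def psiDK (d : ℕ) [NeZero d] (hd : d ∣ M) : Polynomial (gaussDatum M A hqM hA).O :=
  (phiDK M q A hqM hA d hd).comp (X + C (yDK M q A hqM hA d hd ^ q))

include hA in
theorem charP_FRes (N : ℕ) [NeZero N] : CharP (FRes A N) q := by
  haveI := Fermat.Agent.S18lib.Gink.charP_kRes (A := A) hA
  exact charP_of_injective_algebraMap (algebraMap kA (FRes A N)).injective q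

theorem red_phiDK (d : ℕ) [NeZero d] (hd : d ∣ M) :
    (phiDK M q A hqM hA d hd).map (gaussDatum M A hqM hA).red =
      (X ^ q - C (elemK (jI A M d hd))) * (X - C (elemK (jI A M d hd) ^ q)) := by
  haveI := charP_FRes q A hA M
  rw [phiDK, Polynomial.map_map, comp_eval₂RingHom, red_yDK, phiZ_map_char]

theorem psiDK_eval_zero (d : ℕ) [NeZero d] (hd : d ∣ M) :
    (psiDK M q A hqM hA d hd).eval 0 =
      (phiDK M q A hqM hA d hd).eval (yDK M q A hqM hA d hd ^ q) := by
  rw [psiDK, eval_comp, eval_add, eval_X, eval_C, zero_add]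

theorem psiDK_derivative_eval_zero (d : ℕ) [NeZero d] (hd : d ∣ M) :
    (psiDK M q A hqM hA d hd).derivative.eval 0 =
      (phiDK M q A hqM hA d hd).derivative.eval (yDK M q A hqM hA d hd ^ q) := by
  rw [psiDK, derivative_comp, derivative_add, derivative_X, derivative_C, add_zero, one_mul,
    eval_comp, eval_add, eval_X, eval_C, zero_add]

theorem psiDK_eval_zero_mem (d : ℕ) [NeZero d] (hd : d ∣ M) :
    (psiDK M q A hqM hA d hd).eval 0 ∈ IsLocalRing.maximalIdeal (gaussDatum M A hqM hA).O := by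
  rw [← GaussDatum.red_eq_zero_iff, psiDK_eval_zero, ← eval₂_at_apply, ← eval_map, red_phiDK,
    map_pow, red_yDK]
  simp

theorem psiDK_derivative_isUnit (d : ℕ) [NeZero d] (hd : d ∣ M) :
    IsUnit ((psiDK M q A hqM hA d hd).derivative.eval 0) := by
  rw [← GaussDatum.red_ne_zero_iff_isUnit, psiDK_derivative_eval_zero, ← eval₂_at_apply,
    ← eval_map, ← derivative_map, red_phiDK, map_pow, red_yDK]
  have h := elemK_jI_pow_ne q A M d hd
  simpa [derivative_mul, derivative_sub, derivative_pow] using h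

/-! ### the root `u = j(t^(d q)) - j(t^d)^q` -/

/-- the integral series `j(t^(d q)) - j(t^d)^q` -/
def uI (d : ℕ) [NeZero d] (hd : d ∣ M) : IntRing (M * q) A :=
  jI A (M * q) (d * q) (Nat.mul_dvd_mul_right hd q) -
    jI A (M * q) d (hd.trans (Dvd.intro _ rfl)) ^ q

theorem elemL_uI (d : ℕ) [NeZero d] (hd : d ∣ M) :
    elemL (uI M q A d hd) = jd (M * q) (d * q) (Nat.mul_dvd_mul_right hd q) -
      jd (M * q) d (hd.trans (Dvd.intro _ rfl)) ^ q := by
  rw [← elemL_jI A (M * q) (d * q), ← elemL_jI A (M * q) d]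
  apply Subtype.ext
  show toL A ((uI M q A d hd : IntRing (M * q) A) : LaurentSeries A) = _
  rw [uI]
  simp only [AddSubgroupClass.coe_sub, SubmonoidClass.coe_pow, map_sub, map_pow]
  rfl

include hA in
theorem elemK_uI (d : ℕ) [NeZero d] (hd : d ∣ M) : elemK (uI M q A d hd) = 0 := by
  haveI := Fermat.Agent.S18lib.Gink.charP_kRes (A := A) hA
  apply Subtype.ext
  show toK A ((uI M q A d hd : IntRing (M * q) A) : LaurentSeries A) = 0
  rw [uI]
  simp only [AddSubgroupClass.coe_sub, SubmonoidClass.coe_pow, map_sub, map_pow]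
  have h1 : toK A ((jI A (M * q) (d * q) (Nat.mul_dvd_mul_right hd q) : IntRing (M * q) A) :
      LaurentSeries A) = qExpand kA (d * q) (jqModC kA) :=
    coe_elemK_jI A (M * q) (d * q) (Nat.mul_dvd_mul_right hd q)
  have h2 : toK A ((jI A (M * q) d (hd.trans (Dvd.intro _ rfl)) : IntRing (M * q) A) :
      LaurentSeries A) = qExpand kA d (jqModC kA) :=
    coe_elemK_jI A (M * q) d (hd.trans (Dvd.intro _ rfl))
  rw [h1, h2, pow_char_eq_qExpand q, coeffMap_qExpand, coeffMap_jqModC, qExpand_qExpand,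
    qExpand_congr_nat (mul_comm q d), sub_self]

/-- the root as an element of the Gauss subring of level `M q` -/
def uO (d : ℕ) [NeZero d] (hd : d ∣ M) : gaussSubring (M * q) A :=
  ⟨elemL (uI M q A d hd), elemL_mem_gaussSubring _⟩

include hA in
theorem subRed_uO (d : ℕ) [NeZero d] (hd : d ∣ M) : subRed (M * q) A (uO M q A d hd) = 0 := by
  rw [uO, subRed_elemL, elemK_uI M q A hA]

/-- the composite `O_M → O' → FBar (M q)` -/
theorem subtype_comp_phi :
    (gaussSubring (M * q) A).subtype.comp (denseData M q A hqM hA).phi =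
      ((alphaL M q : FBar M →ₐ[Qb] FBar (M * q)) : FBar M →+* FBar (M * q)).comp
        (gaussDatum M A hqM hA).O.subtype :=
  RingHom.ext fun _ => rfl

theorem psiDK_root (d : ℕ) [NeZero d] (hd : d ∣ M) :
    (psiDK M q A hqM hA d hd).eval₂ (denseData M q A hqM hA).phi (uO M q A d hd) = 0 := by
  apply Subtype.ext
  have h1 := Polynomial.hom_eval₂ (psiDK M q A hqM hA d hd) (denseData M q A hqM hA).phi
    (gaussSubring (M * q) A).subtype (uO M q A d hd)
  show (gaussSubring (M * q) A).subtype _ = 0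
  rw [h1, subtype_comp_phi, psiDK, eval₂_comp, eval₂_add, eval₂_X, eval₂_C, phiDK, eval₂_map,
    comp_eval₂RingHom]
  have e1 : (((alphaL M q : FBar M →ₐ[Qb] FBar (M * q)) : FBar M →+* FBar (M * q)).comp
      (gaussDatum M A hqM hA).O.subtype).comp (iotaDK M q A hqM hA) = iotaFB (M * q) := by
    rw [← alphaL_comp_iotaFB M q]
    rfl
  have e2 : (((alphaL M q : FBar M →ₐ[Qb] FBar (M * q)) : FBar M →+* FBar (M * q)).comp
      (gaussDatum M A hqM hA).O.subtype) (yDK M q A hqM hA d hd) =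
      jd (M * q) d (hd.trans (Dvd.intro _ rfl)) := alphaL_jd M q d hd
  have e3 : (gaussSubring (M * q) A).subtype (uO M q A d hd) +
      (((alphaL M q : FBar M →ₐ[Qb] FBar (M * q)) : FBar M →+* FBar (M * q)).comp
        (gaussDatum M A hqM hA).O.subtype) (yDK M q A hqM hA d hd ^ q) =
      jd (M * q) (d * q) (Nat.mul_dvd_mul_right hd q) := by
    rw [map_pow, e2]
    show elemL (uI M q A d hd) + _ = _
    rw [elemL_uI]
    ring
  rw [e1, e2, e3]
  exact biEval₂_jd_mul (M * q) q d (hd.trans (Dvd.intro _ rfl)) (Nat.mul_dvd_mul_right hd q)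

/-- **every generator `j(t^(d q))` is approximable** -/
theorem isApprox_gen (d : ℕ) [NeZero d] (hd : d ∣ M) :
    (denseData M q A hqM hA).IsApprox (jd (M * q) (d * q) (Nat.mul_dvd_mul_right hd q)) := by
  have h1 := (denseData M q A hqM hA).isApprox_of_root (psiDK M q A hqM hA d hd)
    (subRed_uO M q A hA d hd) (psiDK_root M q A hqM hA d hd)
    (psiDK_eval_zero_mem M q A hqM hA d hd) (psiDK_derivative_isUnit M q A hqM hA d hd)
  have h2 : alphaL M q (jd M d hd ^ q) ∈ (denseData M q A hqM hA).approxSubring :=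
    (denseData M q A hqM hA).map_mem_approx
      ((gaussDatum M A hqM hA).O.pow_mem (jd_mem_O M q A hqM hA d hd) q)
  have h3 := Subring.add_mem _ ((denseData M q A hqM hA).mem_approxSubring.mpr h1) h2
  have e : ((uO M q A d hd : gaussSubring (M * q) A) : FBar (M * q)) +
      alphaL M q (jd M d hd ^ q) = jd (M * q) (d * q) (Nat.mul_dvd_mul_right hd q) := by
    rw [map_pow, alphaL_jd]
    show elemL (uI M q A d hd) + _ = _
    rw [elemL_uI]
    ring
  rw [e] at h3
  exact h3

theorem isApprox_genSet : ∀ θ ∈ genSet M q, (denseData M q A hqM hA).IsApprox θ := by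
  rintro θ ⟨d, hd0, hd, rfl⟩
  exact isApprox_gen M q A hqM hA d hd

end Newton

end Fermat.Agent.LSb.Val
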