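/-
LSb / Val / D1  (helper9)

**The Gauss valuation `v₁` of `FBar (M q)` at the prime `q ∥ M q`.**

* `gaussRing1 M q A hqM hA : ValuationSubring (FBar (M * q))`, carrier S18's `gaussSubring (M * q) A`
  `= {a / b : a, b ∈ IntRing (M q) A, b̄ ≠ 0}`;
* `fullC_mul_eq` : `k(j̄(t^d) : d ∣ M q) = k(j̄(t^d) : d ∣ M)` in characteristic `q`;
* `D1 M q A hqM hA : GaussDatum A (FBar (M * q)) (FRes A M)`;
* `toK_mem_fullC` : the reduction of ANY `A`-integral Laurent series lying in `FBar (M q)` lies in
  `FRes A M`; `mem_D1_of_integral`, `D1_red_of_integral`.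
-/
import Mathlib
import Fermat.Agent.LSb.Val.KronNewton

set_option autoImplicit false
set_option linter.unusedSectionVars false
set_option linter.unusedVariables false
set_option linter.style.haveILetI false

noncomputable section

namespace Fermat.Agent.LSb.Val

open ModularCurve Polynomial Fermat.Agent.S18lib Fermat.Agent.S18lib.V Fermat.Agent.S28lib
open Fermat.Agent.S37lib.ConjNorm IntermediateField

local notation "Qb" => AlgebraicClosure ℚ

/-! ### the residue field -/

section ResidueField

variable (k : Type*) [Field k] (M q : ℕ) [NeZero M] [NeZero q] [Fact q.Prime] [CharP k q]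

/-- `j̄(t^(d q)) = j̄(t^d)^q` in characteristic `q` -/
theorem qExpand_mul_jqModC_char (d : ℕ) [NeZero d] :
    qExpand k (d * q) (jqModC k) = (qExpand k d (jqModC k)) ^ q := by
  rw [pow_char_eq_qExpand q, coeffMap_qExpand, coeffMap_jqModC, qExpand_qExpand,
    qExpand_congr_nat (mul_comm q d)]

/-- **the residue field of level `M q` in characteristic `q` is that of level `M`** -/
theorem fullC_mul_eq :
    modularFunctionFieldFullC k (M * q) = modularFunctionFieldFullC k M := by
  have hq : q.Prime := Fact.out
  apply le_antisymm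
  · rw [modularFunctionFieldFullC, adjoin_le_iff]
    rintro x ⟨d', hne, hdvd, rfl⟩
    haveI := hne
    rcases dvd_mul_prime_cases hq hdvd with hdM | ⟨d, hd', hdM⟩
    · exact jqModCd_mem_full k M hdM
    · haveI : NeZero d := ⟨fun h0 => by
        subst h0
        rw [zero_mul] at hd'
        exact (NeZero.ne d') hd'⟩
      rw [qExpand_congr_nat hd', qExpand_mul_jqModC_char]
      exact pow_mem (jqModCd_mem_full k M hdM) q
  · exact full_degeneracyC_le k (Dvd.intro q rfl)

end ResidueField

end Fermat.Agent.LSb.Val
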