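/-
LSb / Val / Integral  (helper7)

The `q`-expansion principle from the valuation-ring property of S18's Gauss subring
`gaussSubring N A = {a / b : a, b ∈ IntRing N A, b̄ ≠ 0}` (ANY level `N`):

if `gaussSubring N A` is a valuation ring of `FBar N`, then every `A`-integral Laurent series `y`
whose characteristic-zero image lies in `FBar N` has its reduction in `FRes A N`, lies in the
Gauss subring, and `subRed` reduces it coefficientwise.
-/
import Mathlib
import Fermat.Agent.LSb.Val.SubRed

set_option autoImplicit false
set_option linter.unusedSectionVars false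
set_option linter.unusedVariables false

noncomputable section

namespace Fermat.Agent.LSb.Val

open ModularCurve Fermat.Agent.S18lib Fermat.Agent.S18lib.V

local notation "Qb" => AlgebraicClosure ℚ

section Integral

variable {N : ℕ} [NeZero N] {A : ValuationSubring Qb}

local notation "kA" => IsLocalRing.ResidueField A

/-- if `toL y * toL b = toL a` then `toK y * toK b = toK a` -/
theorem toK_mul_eq_of_toL_mul_eq {y a b : LaurentSeries A} (h : toL A y * toL A b = toL A a) :
    toK A y * toK A b = toK A a := by
  rw [← map_mul] at h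
  rw [← map_mul, toL_injective h]

/-- **`q`-expansion principle**: if the Gauss subring of level `N` is a valuation ring, the
reduction of an integral Laurent series lying in `FBar N` lies in `FRes A N`. -/
theorem toK_mem_of_valuationRing
    (hval : ∀ x : FBar N, x ∈ gaussSubring N A ∨ x⁻¹ ∈ gaussSubring N A)
    (y : LaurentSeries A) (hy : toL A y ∈ modularFunctionFieldBar N) :
    toK A y ∈ modularFunctionFieldFullC kA N := by
  -- the case `x ∈ O`
  have key : ∀ (a b : IntRing N A), IsRep (⟨toL A y, hy⟩ : FBar N) a b →
      toK A y ∈ modularFunctionFieldFullC kA N := by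
    intro a b hab
    have h1 : toL A y * toL A b.1 = toL A a.1 := congrArg Subtype.val hab.2
    have h2 := toK_mul_eq_of_toL_mul_eq h1
    have hb0 : toK A b.1 ≠ 0 := toK_ne_zero_of_elemK_ne_zero hab.1
    have h3 : toK A y = toK A a.1 * (toK A b.1)⁻¹ := by
      rw [← h2, mul_assoc, mul_inv_cancel₀ hb0, mul_one]
    rw [h3]
    exact mul_mem a.2.2 (inv_mem b.2.2)
  by_cases hy0 : y = 0
  · rw [hy0, map_zero]
    exact zero_mem _
  have hx0 : (⟨toL A y, hy⟩ : FBar N) ≠ 0 := fun h0 =>
    toL_ne_zero hy0 (congrArg Subtype.val h0)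
  rcases hval ⟨toL A y, hy⟩ with ⟨a, b, hab⟩ | ⟨a, b, hab⟩
  · exact key a b hab
  · by_cases ha : elemK a = 0
    · -- `b = y * a`, so `b̄ = ȳ ā = 0`: contradiction
      exfalso
      have h1 : elemL b = (⟨toL A y, hy⟩ : FBar N) * elemL a := by
        rw [← hab.2, ← mul_assoc, mul_inv_cancel₀ hx0, one_mul]
      have h2 : toL A y * toL A a.1 = toL A b.1 := (congrArg Subtype.val h1).symm
      have h3 := toK_mul_eq_of_toL_mul_eq h2
      have h4 : toK A a.1 = 0 := congrArg Subtype.val ha
      rw [h4, mul_zero] at h3
      exact hab.1 (Subtype.ext h3.symm)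
    · have := hab.inv ha
      rw [inv_inv] at this
      exact key b a this

/-- the integral modular function attached to an integral Laurent series lying in `FBar N` -/
def intOfSeries (hval : ∀ x : FBar N, x ∈ gaussSubring N A ∨ x⁻¹ ∈ gaussSubring N A)
    (y : LaurentSeries A) (hy : toL A y ∈ modularFunctionFieldBar N) : IntRing N A :=
  ⟨y, hy, toK_mem_of_valuationRing hval y hy⟩

theorem elemL_intOfSeries (hval : ∀ x : FBar N, x ∈ gaussSubring N A ∨ x⁻¹ ∈ gaussSubring N A)
    (y : LaurentSeries A) (hy : toL A y ∈ modularFunctionFieldBar N) :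
    elemL (intOfSeries hval y hy) = ⟨toL A y, hy⟩ := rfl

theorem coe_elemK_intOfSeries (hval : ∀ x : FBar N, x ∈ gaussSubring N A ∨ x⁻¹ ∈ gaussSubring N A)
    (y : LaurentSeries A) (hy : toL A y ∈ modularFunctionFieldBar N) :
    ((elemK (intOfSeries hval y hy) : FRes A N) : LaurentSeries kA) = toK A y := rfl

/-- integral Laurent series lying in `FBar N` are in the Gauss subring -/
theorem mem_gaussSubring_of_integral
    (hval : ∀ x : FBar N, x ∈ gaussSubring N A ∨ x⁻¹ ∈ gaussSubring N A)
    (y : LaurentSeries A) (hy : toL A y ∈ modularFunctionFieldBar N) :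
    (⟨toL A y, hy⟩ : FBar N) ∈ gaussSubring N A :=
  elemL_mem_gaussSubring (intOfSeries hval y hy)

/-- `subRed` reduces integral Laurent series coefficientwise -/
theorem coe_subRed_of_integral
    (hval : ∀ x : FBar N, x ∈ gaussSubring N A ∨ x⁻¹ ∈ gaussSubring N A)
    (y : LaurentSeries A) (hy : toL A y ∈ modularFunctionFieldBar N) :
    ((subRed N A ⟨⟨toL A y, hy⟩, mem_gaussSubring_of_integral hval y hy⟩ : FRes A N) :
      LaurentSeries kA) = toK A y := by
  have h := subRed_elemL (intOfSeries hval y hy)
  exact congrArg Subtype.val h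

end Integral

end Fermat.Agent.LSb.Val
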