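/-
LSb / Val / D1H  (helper7; assembly of helper9's dense-extension bricks)

**The first Gauss datum of level `M q` at the prime `q ∥ M q`.**

* `gaussOneRing M q A hqM hA : ValuationSubring (FBar (M * q))`, carrier S18's `gaussSubring (M q) A`
  (valuation-ring property: helper9's dense-extension theorem + Kronecker/Newton);
* `gaussOne M q A hqM hA : GaussDatum A (FBar (M * q)) (FRes A M)`;
* `isGaussOne_gaussOne : Old.IsGaussOne (gaussOne …)` (**(H1)**);
* `gaussOne_O_le : x ∈ (gaussOne …).O → x ∈ gaussSubring (M q) A`;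
* `gaussTwo := Unit.transport gaussOne w_q`, `isGaussTwo_gaussTwo : Old.IsGaussTwo gaussOne gaussTwo w_q`
  (**(H2)+(H3)**).
-/
import Mathlib
import Fermat.Agent.LSb.Val.D1
import Fermat.Agent.LSb.Val.Integral
import Fermat.Agent.LSb.Old.Lift
import Fermat.Agent.LSb.Unit.Transport

set_option autoImplicit false
set_option linter.unusedSectionVars false
set_option linter.unusedVariables false
set_option linter.style.haveILetI false

noncomputable section

namespace Fermat.Agent.LSb.Val

open ModularCurve Fermat.Agent.S18lib Fermat.Agent.S18lib.V IntermediateField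

local notation "Qb" => AlgebraicClosure ℚ

section GaussOne

variable (M q : ℕ) [NeZero M] [NeZero q] [Fact q.Prime] (A : ValuationSubring Qb)
  (hqM : ¬ q ∣ M) (hA : A.LiesOverPrime q)

local notation "kA" => IsLocalRing.ResidueField A

include hqM hA in
/-- **the Gauss subring of level `M q` is a valuation ring** -/
theorem gaussSubring_mul_mem_or_inv_mem (x : FBar (M * q)) :
    x ∈ gaussSubring (M * q) A ∨ x⁻¹ ∈ gaussSubring (M * q) A :=
  (denseData M q A hqM hA).mem_or_inv_mem (genSet M q) (isApprox_genSet M q A hqM hA)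
    (subring_closure_genSet M q) x

/-- the valuation ring of the first Gauss valuation of level `M q` -/
def gaussOneRing : ValuationSubring (FBar (M * q)) :=
  { gaussSubring (M * q) A with
    mem_or_inv_mem' := gaussSubring_mul_mem_or_inv_mem M q A hqM hA }

theorem mem_gaussOneRing {x : FBar (M * q)} :
    x ∈ gaussOneRing M q A hqM hA ↔ x ∈ gaussSubring (M * q) A := Iff.rfl

include hA in
/-- the residue fields of levels `M q` and `M` coincide -/
theorem fullC_mul_eq_kA :
    modularFunctionFieldFullC kA (M * q) = modularFunctionFieldFullC kA M := by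
  haveI := Fermat.Agent.S18lib.Gink.charP_kRes (A := A) hA
  exact fullC_mul_eq kA M q

/-- the identification `FRes A (M q) = FRes A M` -/
def resDown : FRes A (M * q) →ₐ[kA] FRes A M :=
  IntermediateField.inclusion (le_of_eq (fullC_mul_eq_kA M q A hA))

@[simp] theorem coe_resDown (x : FRes A (M * q)) :
    ((resDown M q A hA x : FRes A M) : LaurentSeries kA) = (x : LaurentSeries kA) :=
  IntermediateField.coe_inclusion (le_of_eq (fullC_mul_eq_kA M q A hA)) x

/-- the reduction map of the first Gauss valuation -/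
def gaussOneRed : gaussOneRing M q A hqM hA →+* FRes A M :=
  ((resDown M q A hA : FRes A (M * q) →ₐ[kA] FRes A M) : FRes A (M * q) →+* FRes A M).comp
    ((subRed (M * q) A).comp
      (Subring.inclusion (le_of_eq rfl :
        (gaussOneRing M q A hqM hA).toSubring ≤ gaussSubring (M * q) A)))

theorem coe_gaussOneRed (x : gaussOneRing M q A hqM hA) :
    ((gaussOneRed M q A hqM hA x : FRes A M) : LaurentSeries kA) =
      ((subRed (M * q) A ⟨x.1, x.2⟩ : FRes A (M * q)) : LaurentSeries kA) := by
  rw [gaussOneRed]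
  simp only [RingHom.comp_apply, RingHom.coe_coe, coe_resDown]
  rfl

theorem gaussOneRed_apply {x : FBar (M * q)} (hx : x ∈ gaussOneRing M q A hqM hA)
    {a b : IntRing (M * q) A} (h : IsRep x a b) :
    ((gaussOneRed M q A hqM hA ⟨x, hx⟩ : FRes A M) : LaurentSeries kA) =
      ((elemK a / elemK b : FRes A (M * q)) : LaurentSeries kA) := by
  rw [coe_gaussOneRed, subRed_apply _ h]

/-- **the first Gauss datum of level `M q`**, residue field `FRes A M` -/
def gaussOne : GaussDatum A (FBar (M * q)) (FRes A M) where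
  O := gaussOneRing M q A hqM hA
  algebraMap_mem_iff := algebraMap_mem_gaussSubring_iff
  red := gaussOneRed M q A hqM hA
  red_surjective := by
    intro η
    obtain ⟨⟨x, a, b, hab⟩, hρ⟩ := (gaussDatum M A hqM hA).red_surjective η
    have hab' := hab.incl A (Dvd.intro q rfl : M ∣ M * q)
    refine ⟨⟨inclL (Dvd.intro q rfl) x, _, _, hab'⟩, Subtype.ext ?_⟩
    rw [gaussOneRed_apply M q A hqM hA _ hab', elemK_inclI, elemK_inclI, ← map_div₀, coe_inclK,
      ← hρ]
    exact congrArg Subtype.val (gaussDatum_red_apply M A hqM hA _ hab).symm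
  red_algebraMap := by
    intro a ha
    have hrep : IsRep (algebraMap Qb (FBar (M * q)) (a : Qb)) (constI (N := M * q) a) 1 :=
      ⟨by rw [elemK_one]; exact one_ne_zero, by rw [elemL_one, mul_one, elemL_constI]⟩
    apply Subtype.ext
    rw [gaussOneRed_apply M q A hqM hA ha hrep, elemK_one, div_one, elemK_constI]
    rfl
  exists_const_mul_isUnit := by
    intro f hf
    obtain ⟨c, hc, h1, h2⟩ := (denseData M q A hqM hA).exists_const_mul_unit (genSet M q)
      (isApprox_genSet M q A hqM hA) (subring_closure_genSet M q) hf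
    have hcF : algebraMap Qb (FBar (M * q)) c ≠ 0 :=
      (map_ne_zero (algebraMap Qb (FBar (M * q)))).mpr hc
    have hne : algebraMap Qb (FBar (M * q)) c * f ≠ 0 := mul_ne_zero hcF hf
    exact ⟨c, hc, ⟨⟨_, h1⟩, ⟨_, h2⟩, Subtype.ext (mul_inv_cancel₀ hne),
      Subtype.ext (inv_mul_cancel₀ hne)⟩, rfl⟩

theorem mem_gaussOne_O {x : FBar (M * q)} :
    x ∈ (gaussOne M q A hqM hA).O ↔ ∃ a b : IntRing (M * q) A, IsRep x a b := Iff.rfl

/-- `O₁` is S18's Gauss subring -/
theorem gaussOne_O_le {x : FBar (M * q)} (hx : x ∈ (gaussOne M q A hqM hA).O) :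
    x ∈ gaussSubring (M * q) A := hx

/-- **(H1)** -/
theorem isGaussOne_gaussOne : Old.IsGaussOne (gaussOne M q A hqM hA) where
  mem y hy :=
    mem_gaussSubring_of_integral (gaussSubring_mul_mem_or_inv_mem M q A hqM hA) y hy
  red y hy := by
    have hval := gaussSubring_mul_mem_or_inv_mem M q A hqM hA
    have hmem : (⟨toL A y, hy⟩ : FBar (M * q)) ∈ (gaussOne M q A hqM hA).O :=
      mem_gaussSubring_of_integral hval y hy
    rw [GaussDatum.redF_of_mem _ hmem]
    show ((gaussOneRed M q A hqM hA ⟨_, hmem⟩ : FRes A M) : LaurentSeries kA) = _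
    rw [coe_gaussOneRed]
    exact coe_subRed_of_integral hval y hy

end GaussOne

section GaussTwo

variable (M q : ℕ) [NeZero M] [NeZero q] [hq : Fact q.Prime] (A : ValuationSubring Qb)
  (hqM : ¬ q ∣ M) (hA : A.LiesOverPrime q)

/-- **the second Gauss datum of level `M q`**: the transport of the first one by `w_q` -/
def gaussTwo : GaussDatum A (FBar (M * q)) (FRes A M) :=
  Unit.transport (gaussOne M q A hqM hA) (wq M q hq.out hqM)

/-- **(H2)+(H3)** -/
theorem isGaussTwo_gaussTwo :
    Old.IsGaussTwo (gaussOne M q A hqM hA) (gaussTwo M q A hqM hA)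
      ((wq M q hq.out hqM : FBar (M * q) ≃ₐ[Qb] FBar (M * q)) : FBar (M * q) →+* FBar (M * q)) where
  mem_iff x := Unit.mem_transport _ _ x
  redF x := Unit.transport_redF _ _ x
  wq_alpha f := wq_alpha M q hq.out hqM f

end GaussTwo

end Fermat.Agent.LSb.Val
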